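import Fermat.Agent.ThueMahler.Mordell
import Mathlib.AlgebraicGeometry.EllipticCurve.Reduction
import Mathlib.AlgebraicGeometry.EllipticCurve.NormalForms
import Mathlib.NumberTheory.Padics.PadicIntegers

/-!
# Shafarevich's theorem over `ℚ`

An elliptic curve with good reduction outside `S` has, after scaling, a discriminant among finitely
many, and then `(c₄, c₆)` is an `S`-integral point on one of finitely many Mordell curves.
-/

set_option autoImplicit false

noncomputable section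

namespace FA.ThueMahler

open WeierstrassCurve IsDedekindDomain.HeightOneSpectrum

/-- Good reduction makes `c₄` integral and `Δ` a unit, after scaling. -/
theorem exists_scale {p : ℕ} [Fact p.Prime] (E : WeierstrassCurve ℚ)
    {C : VariableChange ℚ_[p]}
    (hC : HasGoodReduction ℤ_[p] (C • E.map (algebraMap ℚ ℚ_[p]))) :
    ∃ k : ℤ, ((p : ℝ) ^ k) ^ 4 * ‖(E.c₄ : ℚ_[p])‖ ≤ 1 ∧
      ((p : ℝ) ^ k) ^ 12 * ‖(E.Δ : ℚ_[p])‖ = 1 := by
  set W := C • E.map (algebraMap ℚ ℚ_[p]) with hW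
  have := hC.toIsMinimal
  obtain ⟨W₀, hW₀⟩ := (inferInstance : IsIntegral ℤ_[p] W).integral
  have hc4 : ‖W.c₄‖ ≤ 1 := by
    rw [hW₀, baseChange, map_c₄]; exact PadicInt.norm_le_one _
  have hΔ : ‖W.Δ‖ = 1 := by
    have hg := hC.goodReduction
    rw [hW₀, baseChange, map_Δ] at hg ⊢
    show ‖W₀.Δ‖ = 1
    rw [← PadicInt.isUnit_iff]
    by_contra hnu
    exact absurd hg (ne_of_lt ((valuation_lt_one_iff_mem _ _).2 hnu))
  rw [hW, variableChange_c₄, map_c₄, eq_ratCast, norm_mul, norm_pow,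
    Padic.norm_eq_zpow_neg_valuation (Units.ne_zero _)] at hc4
  rw [hW, variableChange_Δ, map_Δ, eq_ratCast, norm_mul, norm_pow,
    Padic.norm_eq_zpow_neg_valuation (Units.ne_zero _)] at hΔ
  exact ⟨_, hc4, hΔ⟩

theorem padicValRat_prod_zpow {q : ℕ} [hq : Fact q.Prime] (P : Finset ℕ) (hP : ∀ p ∈ P, p.Prime)
    (e : ℕ → ℤ) :
    padicValRat q (∏ p ∈ P, (p : ℚ) ^ e p) = if q ∈ P then e q else 0 := by
  classical
  induction P using Finset.induction_on with
  | empty => simp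
  | @insert a P ha ih =>
    have hPP : ∀ p ∈ P, p.Prime := fun p hp => hP p (Finset.mem_insert_of_mem hp)
    have hne : ∀ p : ℕ, p.Prime → (p : ℚ) ^ e p ≠ 0 := fun p hp =>
      zpow_ne_zero _ (Nat.cast_ne_zero.2 hp.ne_zero)
    have hap := hP a (Finset.mem_insert_self _ _)
    rw [Finset.prod_insert ha, padicValRat.mul (hne a hap)
      (Finset.prod_ne_zero_iff.2 fun p hp => hne p (hPP p hp)), padicValRat.zpow, ih hPP,
      padicValRat.of_nat]
    by_cases h : q = a
    · subst h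
      simp [ha, padicValNat_self]
    · rw [padicValNat_primes (hp := hq) (hq := ⟨hap⟩) h]
      simp [h]

/-- A curve with good reduction outside `S` becomes, after scaling, `(c₄, c₆)` on a Mordell curve:
an `S`-integral point, with a discriminant bounded by the primes in `S`. -/
theorem exists_mordell_point (S : Finset ℕ) (E : WeierstrassCurve ℚ) [E.IsElliptic]
    (hE : ∀ p : ℕ, ∀ [Fact p.Prime], p ∉ S → ∃ C : VariableChange ℚ_[p],
      HasGoodReduction ℤ_[p] (C • E.map (algebraMap ℚ ℚ_[p]))) :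
    ∃ (δ : ℤ) (x y : ℚ) (C : VariableChange ℚ), δ ≠ 0 ∧
      δ.natAbs ≤ ∏ p ∈ S, max 1 p ^ 11 ∧ y ^ 2 = x ^ 3 + ((-1728 * δ : ℤ) : ℚ) ∧
      (∀ q : ℕ, q.Prime → q ∣ x.den → q ∈ S) ∧ C • E = ⟨0, 0, 0, -x / 48, -y / 864⟩ := by
  classical
  have hΔ0 : E.Δ ≠ 0 := E.isUnit_Δ.ne_zero
  set P := E.Δ.num.natAbs.primeFactors ∪ E.Δ.den.primeFactors with hP
  have hPp : ∀ p ∈ P, p.Prime := fun p hp => by
    rcases Finset.mem_union.1 hp with h | h <;> exact Nat.prime_of_mem_primeFactors h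
  have hout : ∀ q : ℕ, q.Prime → q ∉ P → padicValRat q E.Δ = 0 := fun q hq hqP => by
    simp only [hP, Finset.mem_union, Nat.mem_primeFactors, not_or] at hqP
    have h1 : ¬ q ∣ E.Δ.num.natAbs := fun h => hqP.1 ⟨hq, h, by simpa using hΔ0⟩
    have h2 : ¬ q ∣ E.Δ.den := fun h => hqP.2 ⟨hq, h, E.Δ.den_nz⟩
    rw [padicValRat_def, padicValInt, padicValNat.eq_zero_of_not_dvd h1,
      padicValNat.eq_zero_of_not_dvd h2]
    simp
  set w : ℚ := ∏ p ∈ P, (p : ℚ) ^ (padicValRat p E.Δ / 12) with hw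
  have hw0 : w ≠ 0 := Finset.prod_ne_zero_iff.2 fun p hp =>
    zpow_ne_zero _ (Nat.cast_ne_zero.2 (hPp p hp).ne_zero)
  have hwval : ∀ q : ℕ, [Fact q.Prime] → padicValRat q w = padicValRat q E.Δ / 12 := by
    intro q hq
    rw [hw, padicValRat_prod_zpow P hPp]
    split_ifs with h
    · rfl
    · rw [hout q hq.1 h]; rfl
  set δ := E.Δ / w ^ 12 with hδ
  set x := E.c₄ / w ^ 4 with hx
  set y := E.c₆ / w ^ 6 with hy
  have hδ0 : δ ≠ 0 := div_ne_zero hΔ0 (pow_ne_zero _ hw0)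
  have hδval : ∀ q : ℕ, [Fact q.Prime] → padicValRat q δ = padicValRat q E.Δ % 12 := by
    intro q hq
    rw [hδ, padicValRat.div hΔ0 (pow_ne_zero _ hw0), padicValRat.pow, hwval q]
    push_cast
    omega
  have hgood : ∀ q : ℕ, [Fact q.Prime] → q ∉ S → padicValRat q δ = 0 ∧ ‖(x : ℚ_[q])‖ ≤ 1 := by
    intro q hq hqS
    obtain ⟨C, hC⟩ := hE q hqS
    obtain ⟨k, h4, h12⟩ := exists_scale E hC
    have hq1 : (1 : ℝ) < q := by exact_mod_cast hq.1.one_lt
    have hq0 : (0 : ℝ) < q := by linarith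
    have hn : padicValRat q E.Δ = 12 * k := by
      rw [Padic.norm_eq_zpow_neg_valuation (Rat.cast_ne_zero.2 hΔ0), Padic.valuation_ratCast,
        ← zpow_natCast, ← zpow_mul, ← zpow_add₀ hq0.ne', zpow_eq_one_iff_right₀ hq0.le hq1.ne']
        at h12
      omega
    refine ⟨by rw [hδval q, hn]; simp, ?_⟩
    rw [hx, Rat.cast_div, Rat.cast_pow, norm_div, norm_pow,
      Padic.norm_eq_zpow_neg_valuation (Rat.cast_ne_zero.2 hw0), Padic.valuation_ratCast,
      hwval q, hn, Int.mul_ediv_cancel_left _ (by norm_num : (12 : ℤ) ≠ 0), zpow_neg, inv_pow,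
      div_inv_eq_mul, mul_comm]
    exact h4
  have hden : ∀ r : ℚ, ∀ q : ℕ, q.Prime → q ∣ r.den → ∀ [Fact q.Prime], padicValRat q r < 0 := by
    intro r q hq hd _
    have hn : ¬ q ∣ r.num.natAbs := fun h =>
      Nat.not_coprime_of_dvd_of_dvd hq.one_lt h hd r.reduced
    have hv : 1 ≤ padicValNat q r.den := one_le_padicValNat_of_dvd r.den_nz hd
    rw [padicValRat_def, padicValInt, padicValNat.eq_zero_of_not_dvd hn]
    omega
  have hδint : δ.den = 1 := by
    by_contra h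
    obtain ⟨q, hq, hd⟩ := Nat.exists_prime_and_dvd h
    have : Fact q.Prime := ⟨hq⟩
    have h1 := hden δ q hq hd
    rw [hδval q] at h1
    omega
  have hδcast : δ = (δ.num : ℚ) := by
    conv_lhs => rw [← δ.num_div_den, hδint, Nat.cast_one, div_one]
  have hδD : δ.num.natAbs ≤ ∏ p ∈ S, max 1 p ^ 11 := by
    set n := δ.num.natAbs with hn
    have hn0 : n ≠ 0 := Int.natAbs_ne_zero.2 (Rat.num_ne_zero.2 hδ0)
    have hfac : ∀ q ∈ n.primeFactors, q ∈ S ∧ n.factorization q ≤ 11 := fun q hq => by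
      have hqp := Nat.prime_of_mem_primeFactors hq
      have : Fact q.Prime := ⟨hqp⟩
      have hv : padicValRat q δ = n.factorization q := by
        rw [Nat.factorization_def _ hqp, padicValRat_def, hδint, hn]
        simp [padicValInt]
      have h1 := hδval q
      have hpos := hqp.factorization_pos_of_dvd hn0 (Nat.dvd_of_mem_primeFactors hq)
      refine ⟨?_, by omega⟩
      by_contra hqS
      have := (hgood q hqS).1
      omega
    conv_lhs => rw [← Nat.prod_factorization_pow_eq_self hn0]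
    rw [Finsupp.prod, Nat.support_factorization]
    calc ∏ q ∈ n.primeFactors, q ^ n.factorization q ≤ ∏ q ∈ n.primeFactors, max 1 q ^ 11 :=
          Finset.prod_le_prod' fun q hq => (Nat.pow_le_pow_right
            (Nat.prime_of_mem_primeFactors hq).pos (hfac q hq).2).trans
            (Nat.pow_le_pow_left (le_max_right _ _) _)
      _ ≤ ∏ q ∈ S, max 1 q ^ 11 := Finset.prod_le_prod_of_subset_of_one_le'
          (fun q hq => (hfac q hq).1) fun q _ _ => Nat.one_le_pow _ _ (by omega)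
  let : Invertible (2 : ℚ) := invertibleOfNonzero (by norm_num)
  let : Invertible (3 : ℚ) := invertibleOfNonzero (by norm_num)
  set C₀ := E.toShortNF with hC₀
  set E₁ := C₀ • E with hE₁
  have : E₁.IsShortNF := E.toShortNF_spec
  set u₀ : ℚ := ((C₀.u⁻¹ : ℚˣ) : ℚ) with hu₀
  have hu₀0 : u₀ ≠ 0 := Units.ne_zero _
  refine ⟨δ.num, x, y, ⟨Units.mk0 (w * u₀) (mul_ne_zero hw0 hu₀0), 0, 0, 0⟩ * C₀,
    Rat.num_ne_zero.2 hδ0, hδD, ?_, fun q hq hd => ?_, ?_⟩
  · push_cast
    rw [← hδcast, hx, hy, hδ]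
    field_simp
    linear_combination E.c_relation
  · by_contra hqS
    have : Fact q.Prime := ⟨hq⟩
    have h1 := hden x q hq hd
    have h2 := (hgood q hqS).2
    rw [Padic.norm_le_one_iff_val_nonneg, Padic.valuation_ratCast] at h2
    omega
  · have h4 := E.variableChange_c₄ C₀
    rw [← hE₁, c₄_of_isShortNF, ← hu₀] at h4
    have h6 := E.variableChange_c₆ C₀
    rw [← hE₁, c₆_of_isShortNF, ← hu₀] at h6
    rw [mul_smul, ← hE₁]
    symm
    ext
    all_goals simp only [variableChange_a₁, variableChange_a₂, variableChange_a₃,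
      variableChange_a₄, variableChange_a₆, E₁.a₁_of_isShortNF, E₁.a₂_of_isShortNF,
      E₁.a₃_of_isShortNF, Units.val_inv_eq_inv_val, Units.val_mk0]
    · simp
    · simp
    · simp
    · rw [hx, mul_inv]
      field_simp
      linear_combination h4
    · rw [hy, mul_inv]
      field_simp
      linear_combination h6

/-- **Shafarevich's theorem**: up to isomorphism there are finitely many elliptic curves over `ℚ`
with good reduction outside `S`. -/
theorem finite_good_reduction (S : Finset ℕ) :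
    ∃ T : Set (WeierstrassCurve ℚ), T.Finite ∧ ∀ (E : WeierstrassCurve ℚ) [E.IsElliptic],
      (∀ p : ℕ, ∀ [Fact p.Prime], p ∉ S → ∃ C : VariableChange ℚ_[p],
        HasGoodReduction ℤ_[p] (C • E.map (algebraMap ℚ ℚ_[p]))) →
      ∃ C : VariableChange ℚ, C • E ∈ T := by
  classical
  set D : Set ℤ := {D | D ≠ 0 ∧ D.natAbs ≤ ∏ p ∈ S, max 1 p ^ 11} with hDdef
  have hDfin : D.Finite := (Set.finite_Icc (-((∏ p ∈ S, max 1 p ^ 11 : ℕ) : ℤ))
    ((∏ p ∈ S, max 1 p ^ 11 : ℕ) : ℤ)).subset fun d hd => by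
      have := hd.2; constructor <;> omega
  set T : Set (WeierstrassCurve ℚ) := (fun p : ℚ × ℚ => ⟨0, 0, 0, -p.1 / 48, -p.2 / 864⟩) ''
    ⋃ d ∈ D, {p : ℚ × ℚ | p.2 ^ 2 = p.1 ^ 3 + ((-1728 * d : ℤ) : ℚ) ∧
      ∀ q : ℕ, q.Prime → q ∣ p.1.den → q ∈ S} with hTdef
  refine ⟨T, (hDfin.biUnion fun d hd =>
    finite_sIntegral_mordell S (mul_ne_zero (by norm_num) hd.1)).image _, fun E _ hE => ?_⟩
  obtain ⟨δ, x, y, C, hδ0, hδ, hxy, hden, hC⟩ := exists_mordell_point S E hE
  exact ⟨C, (x, y), Set.mem_biUnion (x := δ) ⟨hδ0, hδ⟩ ⟨hxy, hden⟩, hC.symm⟩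

end FA.ThueMahler

end
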