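import Fermat.Agent.ThueMahler.Finite
import Mathlib.RingTheory.Polynomial.IntegralNormalization

/-!
# Coprime values of binary forms supported on a finite set of primes
-/

set_option autoImplicit false

noncomputable section

namespace FA.ThueMahler

open Polynomial FA.Thue

theorem separable_C_mul_comp {K : Type*} [Field K] {g : K[X]} (hg : g.Separable) {c d : K}
    (hc : c ≠ 0) (hd : d ≠ 0) : (C c * g.comp (C d * X)).Separable := by
  refine Separable.unit_mul (isUnit_C.2 hc.isUnit) ?_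
  rw [separable_def, derivative_comp]
  have h : IsCoprime (g.comp (C d * X)) (g.derivative.comp (C d * X)) := by
    simpa using IsCoprime.map hg (compRingHom (C d * X))
  simpa [isCoprime_mul_unit_left_right (isUnit_C.2 hd.isUnit)] using h

/-- **The Thue–Mahler theorem.** -/
theorem finite_coprime_values (S : Finset ℕ) {f : ℤ[X]} (hdeg : 3 ≤ f.natDegree)
    (hsep : (f.map (Int.castRingHom ℚ)).Separable) :
    {p : ℤ × ℤ | IsCoprime p.1 p.2 ∧ SUnit S (form f p.1 p.2)}.Finite := by
  classical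
  set n := f.natDegree with hn
  set a := f.leadingCoeff with ha
  have hf0 : f ≠ 0 := fun h => by simp [hn, h] at hdeg
  have ha0 : a ≠ 0 := leadingCoeff_ne_zero.2 hf0
  have haQ : (a : ℚ) ≠ 0 := Int.cast_ne_zero.2 ha0
  set μ := f.integralNormalization with hμ
  have hμdeg : μ.natDegree = n := natDegree_integralNormalization
  set fQ := f.map (Int.castRingHom ℚ) with hfQ
  set μQ := μ.map (Int.castRingHom ℚ) with hμQ
  have hev : ∀ z : ℚ, μQ.eval ((a : ℚ) * z) = (a : ℚ) ^ (n - 1) * fQ.eval z := fun z => by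
    rw [hμQ, hfQ, eval_map, eval_map]
    exact integralNormalization_eval₂_leadingCoeff_mul (by omega) (Int.castRingHom ℚ) z
  have hμsep : μQ.Separable := by
    have e : μQ = C ((a : ℚ) ^ (n - 1)) * fQ.comp (C (a : ℚ)⁻¹ * X) := by
      refine Polynomial.funext fun z => ?_
      rw [eval_mul, eval_C, eval_comp, eval_mul, eval_C, eval_X, ← hev, ← mul_assoc,
        mul_inv_cancel₀ haQ, one_mul]
    rw [e]
    exact separable_C_mul_comp hsep (pow_ne_zero _ haQ) (inv_ne_zero haQ)
  set S' := S ∪ a.natAbs.primeFactors with hS'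
  have hfin := finite_of_monic S' (monic_integralNormalization hf0) (hμdeg.symm ▸ hdeg) hμsep
  set g : ℤ × ℤ → ℚ × Bool := fun p => ((a * p.1 : ℤ) / (p.2 : ℚ), decide (0 < p.2)) with hg
  set B := {p : ℤ × ℤ | IsCoprime p.1 p.2 ∧ SUnit S (form f p.1 p.2)} with hB
  suffices h : (B \ {(1, 0), (-1, 0)}).Finite from
    (h.union (Set.toFinite {(1, 0), (-1, 0)})).subset fun p hp => by
      by_cases hp' : p ∈ ({(1, 0), (-1, 0)} : Set (ℤ × ℤ))
      · exact Or.inr hp'
      · exact Or.inl ⟨hp, hp'⟩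
  have hy : ∀ p ∈ B \ {(1, 0), (-1, 0)}, p.2 ≠ 0 := by
    rintro ⟨x, y⟩ ⟨⟨hc, -⟩, hne⟩ (rfl : y = 0)
    rcases Int.isUnit_iff.1 (isCoprime_zero_right.1 hc) with rfl | rfl <;> simp at hne
  refine Set.Finite.of_finite_image (f := g) ((hfin.prod Set.finite_univ).subset ?_) ?_
  · rintro _ ⟨p, hp, rfl⟩
    refine ⟨?_, trivial⟩
    obtain ⟨x, y⟩ := p
    have hy0 : y ≠ 0 := hy _ hp
    set t : ℚ := ((a * x : ℤ) : ℚ) / (y : ℚ) with ht
    show SUnit S' (form μ t.num t.den)
    have hden : (t.den : ℤ) ∣ y := by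
      have := Rat.den_dvd (a * x) y
      rwa [Rat.divInt_eq_div] at this
    obtain ⟨e, he⟩ := hden
    have hyQ : (y : ℚ) ≠ 0 := Int.cast_ne_zero.2 hy0
    have hdQ : ((t.den : ℤ) : ℚ) ≠ 0 := by exact_mod_cast t.den_nz
    have key : a ^ (n - 1) * form f x y = e ^ n * form μ t.num t.den := by
      have h1 : ((a ^ (n - 1) * form f x y : ℤ) : ℚ) = (y : ℚ) ^ n * μQ.eval t := by
        rw [ht, show ((a * x : ℤ) : ℚ) / (y : ℚ) = (a : ℚ) * ((x : ℚ) / y) by push_cast; ring, hev]
        push_cast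
        rw [form_eq_mul f x y hy0, ← hfQ, ← hn]
        ring
      have h2 : ((e ^ n * form μ t.num t.den : ℤ) : ℚ) = (y : ℚ) ^ n * μQ.eval t := by
        push_cast
        rw [form_eq_mul μ t.num t.den (by exact_mod_cast t.den_nz), hμdeg, ← hμQ, ← mul_assoc,
          ← mul_pow, Int.cast_natCast, Rat.num_div_den]
        congr 2
        rw [he]; push_cast; ring
      exact_mod_cast h1.trans h2.symm
    have hne : a ^ (n - 1) * form f x y ≠ 0 := mul_ne_zero (pow_ne_zero _ ha0) hp.1.2.1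
    refine ⟨right_ne_zero_of_mul (key ▸ hne), fun q hq hqd => ?_⟩
    rcases (Nat.prime_iff_prime_int.1 hq).dvd_or_dvd (key ▸ hqd.mul_left (e ^ n)) with h | h
    · exact Finset.mem_union_right _ (Nat.mem_primeFactors.2 ⟨hq,
        Int.natCast_dvd.1 ((Nat.prime_iff_prime_int.1 hq).dvd_of_dvd_pow h),
        Int.natAbs_ne_zero.2 ha0⟩)
    · exact Finset.mem_union_left _ (hp.1.2.2 q hq h)
  · rintro ⟨x, y⟩ hp ⟨x', y'⟩ hp' he
    have hy0 : y ≠ 0 := hy _ hp
    have hy0' : y' ≠ 0 := hy _ hp'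
    simp only [hg, Prod.mk.injEq] at he
    obtain ⟨he1, he2⟩ := he
    rw [div_eq_div_iff (Int.cast_ne_zero.2 hy0) (Int.cast_ne_zero.2 hy0')] at he1
    have he3 : x * y' = x' * y := by
      refine mul_left_cancel₀ ha0 ?_
      have : a * x * y' = a * x' * y := by exact_mod_cast he1
      linarith
    have hc : IsCoprime x y := hp.1.1
    have hc' : IsCoprime x' y' := hp'.1.1
    have h1 : y ∣ y' := (hc.symm).dvd_of_dvd_mul_left ⟨x', by linarith⟩
    have h2 : y' ∣ y := (hc'.symm).dvd_of_dvd_mul_left ⟨x, by linarith⟩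
    have hyy : y = y' := by
      rcases Int.natAbs_eq_natAbs_iff.1 (Int.natAbs_eq_of_dvd_dvd h1 h2) with h | h
      · exact h
      · rw [decide_eq_decide] at he2
        omega
    subst hyy
    exact Prod.ext (mul_right_cancel₀ hy0 he3) rfl

/-- **The unit equation** `u + v = w` has finitely many coprime solutions supported on `S`. -/
theorem finite_unit_equation (S : Finset ℕ) :
    {p : ℤ × ℤ | IsCoprime p.1 p.2 ∧ SUnit S p.1 ∧ SUnit S p.2 ∧
      SUnit S (p.1 + p.2)}.Finite := by
  set f : ℤ[X] := C 2 * X ^ 3 + C 3 * X ^ 2 + C 1 * X with hf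
  have hdeg : f.natDegree = 3 := by rw [hf]; compute_degree!
  have hsep : (f.map (Int.castRingHom ℚ)).Separable := by
    rw [separable_def]
    refine ⟨C (-36 : ℚ) * X + C (-18), C 12 * X ^ 2 + C 12 * X + C 1, ?_⟩
    rw [hf]
    refine Polynomial.funext fun z => ?_
    simp
    ring
  have h := finite_coprime_values S (f := f) (by omega) hsep
  refine (h.image (fun q : ℤ × ℤ => (q.1, q.1 + q.2))).subset ?_
  rintro ⟨u, v⟩ ⟨hc, hu, hv, hw⟩
  refine ⟨(u, v - u), ⟨?_, ?_⟩, by simp⟩
  · show IsCoprime u (v - u)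
    rw [show v - u = v + u * (-1) by ring]
    exact hc.add_mul_left_right _
  · have e : form f u (v - u) = u * v * (u + v) := by
      rw [form, hdeg]
      simp only [hf, Finset.sum_range_succ, Finset.sum_range_zero, coeff_add, coeff_C_mul,
        coeff_X_pow, coeff_X]
      norm_num
      ring
    show SUnit S (form f u (v - u))
    rw [e]
    refine ⟨mul_ne_zero (mul_ne_zero hu.1 hv.1) hw.1, fun q hq hd => ?_⟩
    rcases (Nat.prime_iff_prime_int.1 hq).dvd_or_dvd hd with h | h
    · rcases (Nat.prime_iff_prime_int.1 hq).dvd_or_dvd h with h | h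
      · exact hu.2 q hq h
      · exact hv.2 q hq h
    · exact hw.2 q hq h

end FA.ThueMahler

end
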