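import Fermat.Agent.Thue.CubicForms
import Fermat.Agent.ThueMahler.Forms

/-!
# All classes of binary cubic forms and their values supported on a finite set of primes
-/

set_option autoImplicit false

noncomputable section

namespace FA.ThueMahler

open Polynomial FA.Thue

theorem act_act (F : CubicForm) (p q r s p' q' r' s' : ℤ) :
    (F.act p q r s).act p' q' r' s' =
      F.act (p * p' + q * r') (p * q' + q * s') (r * p' + s * r') (r * q' + s * s') := by
  ext <;> simp only [CubicForm.act, CubicForm.eval, Int.cast_id] <;> ring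

/-- Forms of given non-zero discriminant with a rational zero form finitely many classes. -/
theorem exists_small_of_isotropic {F : CubicForm} (hD : F.disc ≠ 0) (hF : ¬F.Anisotropic) :
    ∃ p q r s : ℤ, p * s - q * r = 1 ∧ F.act p q r s ∈ CubicForm.box (5 * F.disc ^ 2) := by
  simp only [CubicForm.Anisotropic, not_forall] at hF
  obtain ⟨X, Y, h0, hne⟩ := hF
  have hg : (Int.gcd X Y : ℤ) ≠ 0 := by
    intro h
    obtain ⟨hX, hY⟩ := Int.gcd_eq_zero_iff.1 (by exact_mod_cast h)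
    exact hne ⟨hX, hY⟩
  set g : ℤ := ((Int.gcd X Y : ℕ) : ℤ) with hgdef
  obtain ⟨x, hx⟩ : g ∣ X := Int.gcd_dvd_left X Y
  obtain ⟨y, hy⟩ : g ∣ Y := Int.gcd_dvd_right X Y
  have hxy : IsCoprime x y := by
    have h := Int.gcd_eq_gcd_ab X Y
    rw [← hgdef] at h
    refine ⟨Int.gcdA X Y, Int.gcdB X Y, mul_left_cancel₀ hg ?_⟩
    linear_combination -h - Int.gcdA X Y * hx - Int.gcdB X Y * hy
  have hzero : F.eval x y = 0 := by
    have e : F.eval X Y = g ^ 3 * F.eval x y := by
      rw [hx, hy]; simp only [CubicForm.eval, Int.cast_id]; ring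
    rw [h0] at e
    exact (mul_eq_zero.1 e.symm).resolve_left (pow_ne_zero _ hg)
  obtain ⟨u, v, huv⟩ := hxy
  set G := F.act x (-v) y u with hG
  have hdet : x * u - -v * y = 1 := by linear_combination huv
  have hGD : G.disc = F.disc := by rw [hG, CubicForm.disc_act, hdet, one_pow, one_mul]
  have hGa : G.a = 0 := hzero
  set k := -(G.c / (2 * G.b)) with hk
  refine ⟨x, x * k + -v, y, y * k + u, by linear_combination hdet, ?_⟩
  have hact : F.act x (x * k + -v) y (y * k + u) = G.act 1 k 0 1 := by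
    rw [hG, act_act]; simp
  rw [hact]
  set H := G.act 1 k 0 1 with hH
  have hHD : H.disc = F.disc := by rw [hH, CubicForm.disc_act, hGD]; simp
  have hHa : H.a = 0 := by rw [hH, CubicForm.act]; simp [CubicForm.eval, hGa]
  have hHb : H.b = G.b := by simp [hH, CubicForm.act, hGa]
  have hHc : H.c = G.c + 2 * G.b * k := by
    simp [hH, CubicForm.act, hGa]; ring
  have hdisc : F.disc = H.b ^ 2 * (H.c ^ 2 - 4 * H.b * H.d) := by
    rw [← hHD, CubicForm.disc, hHa]; ring
  have hb0 : H.b ≠ 0 := fun h => hD (by rw [hdisc, h]; ring)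
  have hc : |H.c| ≤ 2 * |H.b| := by
    have hb : G.b ≠ 0 := hHb ▸ hb0
    have e : H.c = G.c % (2 * G.b) := by
      rw [hHc, Int.emod_def, hk]; ring
    have h1 := Int.emod_nonneg G.c (mul_ne_zero two_ne_zero hb)
    have h2 := Int.emod_lt G.c (mul_ne_zero two_ne_zero hb)
    rw [e, hHb, abs_of_nonneg h1]
    rw [Int.natCast_natAbs, abs_mul, abs_two] at h2
    exact h2.le
  have hbD : |H.b| ≤ |F.disc| := Int.le_of_dvd (abs_pos.2 hD) ((abs_dvd_abs _ _).2
    ⟨H.b * (H.c ^ 2 - 4 * H.b * H.d), by rw [hdisc]; ring⟩)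
  have hq0 : |H.c ^ 2 - 4 * H.b * H.d| ≤ |F.disc| := Int.le_of_dvd (abs_pos.2 hD)
    ((abs_dvd_abs _ _).2 ⟨H.b ^ 2, by rw [hdisc]; ring⟩)
  have hb1 : 1 ≤ |H.b| := Int.one_le_abs hb0
  have hd : |H.d| ≤ 5 * F.disc ^ 2 := by
    have h1 : |4 * H.b * H.d| ≤ H.c ^ 2 + |F.disc| := by
      have := abs_sub (H.c ^ 2) (H.c ^ 2 - 4 * H.b * H.d)
      rw [sub_sub_cancel, abs_of_nonneg (sq_nonneg H.c)] at this
      linarith
    rw [abs_mul, abs_mul, Nat.abs_ofNat] at h1
    have h2 : H.c ^ 2 ≤ 4 * F.disc ^ 2 := by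
      rw [← sq_abs H.c, ← sq_abs F.disc]
      nlinarith [abs_nonneg H.c, abs_nonneg H.b]
    have h3 : |F.disc| ≤ F.disc ^ 2 := by
      rw [← sq_abs F.disc]; nlinarith [Int.one_le_abs hD]
    nlinarith [abs_nonneg H.d, mul_le_mul_of_nonneg_right hb1 (abs_nonneg H.d)]
  have h5 : 2 * |F.disc| ≤ 5 * F.disc ^ 2 := by
    rw [← sq_abs F.disc]; nlinarith [Int.one_le_abs hD]
  refine ⟨by rw [hHa, abs_zero]; positivity, ?_, ?_, hd⟩ <;> linarith [abs_nonneg H.b]

/-- All forms of given non-zero discriminant form finitely many classes. -/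
theorem exists_representatives {D : ℤ} (hD : D ≠ 0) :
    ∃ S : Set CubicForm, S.Finite ∧ ∀ F : CubicForm, F.disc = D →
      ∃ p q r s : ℤ, p * s - q * r = 1 ∧ F.act p q r s ∈ S := by
  obtain ⟨S, hfin, hS⟩ := CubicForm.exists_representatives hD
  refine ⟨S ∪ CubicForm.box (5 * D ^ 2), hfin.union (CubicForm.box_finite _), fun F hF => ?_⟩
  by_cases h : F.Anisotropic
  · obtain ⟨p, q, r, s, hdet, hm⟩ := hS F hF h
    exact ⟨p, q, r, s, hdet, Or.inl hm⟩
  · obtain ⟨p, q, r, s, hdet, hm⟩ := exists_small_of_isotropic (hF ▸ hD) h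
    exact ⟨p, q, r, s, hdet, Or.inr (hF ▸ hm)⟩

/-- The Thue–Mahler theorem for a cubic form of non-zero discriminant. -/
theorem finite_cubic_values (S : Finset ℕ) {G : CubicForm} (hD : G.disc ≠ 0) :
    {p : ℤ × ℤ | IsCoprime p.1 p.2 ∧ SUnit S (G.eval p.1 p.2)}.Finite := by
  -- move a non-zero of the form to infinity
  obtain ⟨k, hk⟩ : ∃ k : ℤ, G.eval 1 k ≠ 0 := by
    by_contra h
    push Not at h
    set f : ℤ[X] := (⟨G.d, G.c, G.b, G.a⟩ : Cubic ℤ).toPoly with hf
    have h0 : f = 0 := zero_of_eval_zero f fun k => by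
      rw [← h k]; simp [hf, Cubic.toPoly, CubicForm.eval]; ring
    have h1 := congrArg (fun r : ℤ[X] => r.coeff 3) h0
    have h2 := congrArg (fun r : ℤ[X] => r.coeff 2) h0
    have h3 := congrArg (fun r : ℤ[X] => r.coeff 1) h0
    have h4 := congrArg (fun r : ℤ[X] => r.coeff 0) h0
    simp only [hf, Cubic.coeff_eq_a, Cubic.coeff_eq_b, Cubic.coeff_eq_c, Cubic.coeff_eq_d,
      coeff_zero] at h1 h2 h3 h4
    exact hD (by simp [CubicForm.disc, h1, h2, h3, h4])
  set F := G.act 1 0 k 1 with hF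
  have ha : F.a ≠ 0 := hk
  have hFD : F.disc ≠ 0 := by
    rw [hF, CubicForm.disc_act]; simpa using hD
  set f : ℤ[X] := (⟨F.a, F.b, F.c, F.d⟩ : Cubic ℤ).toPoly with hf
  have hdeg : f.natDegree = 3 := Cubic.natDegree_of_a_ne_zero ha
  have hsep : (f.map (Int.castRingHom ℚ)).Separable := by
    rw [← separable_map (algebraMap ℚ ℂ), Polynomial.map_map,
      Subsingleton.elim ((algebraMap ℚ ℂ).comp (Int.castRingHom ℚ)) (Int.castRingHom ℂ),
      separable_def, isCoprime_iff_aeval_ne_zero_of_isAlgClosed (k := ℂ) (K := ℂ)]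
    intro z
    by_contra hz
    simp only [not_or, not_not] at hz
    obtain ⟨h1, h2⟩ := hz
    simp [hf, Cubic.toPoly] at h1 h2
    refine hFD (Int.cast_injective (α := ℂ) ?_)
    have hd : (F.d : ℂ) = -((F.a : ℂ) * z ^ 3 + F.b * z ^ 2 + F.c * z) := by linear_combination h1
    have hc : (F.c : ℂ) = -((F.a : ℂ) * (3 * z ^ 2) + F.b * (2 * z)) := by linear_combination h2
    simp only [CubicForm.disc]
    push_cast
    rw [hd, hc]
    ring
  have hform : ∀ X Y, form f X Y = F.eval X Y := fun X Y => by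
    rw [form, hdeg]
    simp only [hf, Finset.sum_range_succ, Finset.sum_range_zero, Cubic.coeff_eq_d,
      Cubic.coeff_eq_c, Cubic.coeff_eq_b, Cubic.coeff_eq_a, CubicForm.eval, Int.cast_id]
    ring
  refine ((finite_coprime_values S (f := f) hdeg.ge hsep).image
    fun p : ℤ × ℤ => (p.1, k * p.1 + p.2)).subset ?_
  rintro ⟨X, Y⟩ ⟨hc, hS⟩
  refine ⟨(X, Y - k * X), ⟨?_, ?_⟩, by simp⟩
  · show IsCoprime X (Y - k * X)
    rw [show Y - k * X = Y + X * -k by ring]
    exact hc.add_mul_left_right _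
  · show SUnit S (form f X (Y - k * X))
    rw [hform, hF, CubicForm.eval_act]
    simpa using hS

end FA.ThueMahler

end
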