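import Fermat.Agent.ThueMahler.Places

/-!
# The Thue–Mahler theorem

A separable binary form of degree at least three has only finitely many coprime values supported
on a given finite set of primes: infinitely many would give two very good simultaneous
approximations, at infinity and at the primes, to the same roots, with very different heights.
-/

set_option autoImplicit false

noncomputable section

namespace FA.ThueMahler

open Polynomial FA.Thue

/-- Rationals of bounded height are finite in number. -/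
theorem finite_height_le (B : ℕ) : {t : ℚ | height t ≤ B}.Finite := by
  refine Set.Finite.of_finite_image (f := fun x : ℚ => (x.num, x.den)) ?_
    fun a _ b _ h => Rat.ext (congrArg Prod.fst h) (congrArg Prod.snd h)
  refine ((Set.finite_Icc (-(B : ℤ)) B).prod (Set.finite_Iic B)).subset ?_
  rintro _ ⟨x, hx, rfl⟩
  have h1 : x.num.natAbs ≤ B := (le_max_right _ _).trans hx
  have h2 : x.den ≤ B := (le_max_left _ _).trans hx
  show x.num ∈ Set.Icc (-(B : ℤ)) B ∧ x.den ∈ Set.Iic B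
  exact ⟨⟨by omega, by omega⟩, h2⟩

theorem one_le_height (t : ℚ) : 1 ≤ height t := le_trans t.pos (le_max_left _ _)

/-- The gap principle: simultaneous approximations with the exponents `a` of total more than
`n / 2 + 1` are finite in number. -/
theorem finite_of_gap {ι : Type*} [Fintype ι] [Nonempty ι] {n : ℕ} (δ : ι → ℚ → ℝ) {D : ℝ}
    (hD : 1 ≤ D) (hδ : ∀ v t, 0 ≤ δ v t) (a : ι → ℝ) (ha : ∀ v, 0 ≤ a v)
    (hκ : (n : ℝ) / 2 + 1 < ∑ v, a v) {B : Set ℚ}
    (hB : ∀ t ∈ B, ∀ v, δ v t ≤ D * (height t : ℝ) ^ (-a v))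
    (hgap : ∀ s : ℕ, 4 ≤ s → ∃ K : ℝ, 1 ≤ K ∧ ∀ m : ℕ, 1 ≤ m → ∀ t u : ℚ, ∃ j : ℕ,
      (height t : ℝ) ^ (j - 1) ≤ K ^ m ∧
        1 ≤ (height t : ℝ) ^ (n * m * (s + 1) / (2 * s)) * (height u : ℝ) *
          (K ^ m * ∏ v, (δ v t ^ (m - j) + δ v u))) :
    B.Finite := by
  classical
  by_contra hinf
  set κ := ∑ v, a v with hκdef
  set c := Fintype.card ι with hc
  set ε := κ - n / 2 - 1 with hε
  have hε0 : 0 < ε := by linarith
  have hn0 : (0 : ℝ) ≤ n := Nat.cast_nonneg n
  have hκ0 : 0 < κ := by linarith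
  set s := max 4 ⌈2 * (n : ℝ) / ε⌉₊ with hs
  have hs4 : 4 ≤ s := le_max_left _ _
  have hns : (n : ℝ) / (2 * s) ≤ ε / 4 := by
    have h1 : 2 * (n : ℝ) / ε ≤ s :=
      (Nat.le_ceil _).trans (Nat.cast_le.2 (hs ▸ le_max_right 4 _))
    rw [div_le_iff₀ hε0] at h1
    rw [div_le_iff₀ (by positivity)]
    linarith
  obtain ⟨K₀, hK₀, hgap⟩ := hgap s hs4
  set K := K₀ * (2 * D) ^ c with hKdef
  have hK : 1 ≤ K := one_le_mul_of_one_le_of_one_le hK₀ (one_le_pow₀ (by linarith))
  have hK₀K : K₀ ≤ K := le_mul_of_one_le_right (by linarith) (one_le_pow₀ (by linarith))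
  set γ := ε / (4 * (κ + 1)) with hγ
  have hγ0 : 0 < γ := by positivity
  have hpick : ∀ b : ℕ, ∃ x ∈ B, b < height x := fun b => by
    by_contra hno
    push Not at hno
    exact hinf ((finite_height_le b).subset fun x hx => hno x hx)
  obtain ⟨x, hxB, hxH⟩ := hpick (max 2 ⌈K ^ (1 / γ)⌉₊)
  obtain ⟨y, hyB, hyH⟩ := hpick (height x ^ (⌈2 * (κ + 2) / ε⌉₊ + 2))
  set q := (height x : ℝ) with hq
  have hxd : 2 < height x := (le_max_left _ _).trans_lt hxH
  have hq2 : (2 : ℝ) ≤ q := by rw [hq]; exact_mod_cast hxd.le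
  have hq0 : 0 < q := by linarith
  have hKq : K ≤ q ^ γ := by
    have h1 : K ^ (1 / γ) ≤ q := (Nat.le_ceil _).trans (by
      rw [hq]; exact_mod_cast (le_max_right _ _).trans hxH.le)
    have h2 := Real.rpow_le_rpow (by positivity) h1 hγ0.le
    rwa [← Real.rpow_mul (by linarith), one_div_mul_cancel hγ0.ne', Real.rpow_one] at h2
  set m := Nat.log (height x) (height y) with hm
  have hlo : height x ^ m ≤ height y :=
    Nat.pow_log_le_self _ (by have := one_le_height y; omega)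
  have hhi : height y < height x ^ (m + 1) := Nat.lt_pow_succ_log_self (by omega) _
  have hmM : ⌈2 * (κ + 2) / ε⌉₊ + 2 ≤ m := Nat.le_log_of_pow_le (by omega) hyH.le
  have hm1 : 1 ≤ m := by omega
  have hmreal : 2 * (κ + 2) / ε < m := by
    have : ((⌈2 * (κ + 2) / ε⌉₊ : ℕ) : ℝ) + 2 ≤ m := by exact_mod_cast hmM
    linarith [Nat.le_ceil (2 * (κ + 2) / ε)]
  obtain ⟨j, hj, hge⟩ := hgap m hm1 x y
  have hKm : K ^ m ≤ q ^ (γ * m) := by
    rw [Real.rpow_mul hq0.le, Real.rpow_natCast]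
    exact pow_le_pow_left₀ (by linarith) hKq m
  have hjm : (j : ℝ) ≤ γ * m + 1 := by
    have h1 : q ^ (((j - 1 : ℕ) : ℝ)) ≤ q ^ (γ * m) := by
      rw [Real.rpow_natCast]
      exact (hj.trans (pow_le_pow_left₀ (by linarith) hK₀K m)).trans hKm
    rw [Real.rpow_le_rpow_left_iff (by linarith)] at h1
    have : (j : ℝ) ≤ ((j - 1 : ℕ) : ℝ) + 1 := by exact_mod_cast (show j ≤ j - 1 + 1 by omega)
    linarith
  set N := n * m * (s + 1) / (2 * s) with hN
  have hNb : (N : ℝ) ≤ m * (n / 2 + ε / 4) := by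
    refine (Nat.cast_div_le).trans ?_
    push_cast
    have hs0 : (0 : ℝ) < s := by exact_mod_cast (show 0 < s by omega)
    calc (n : ℝ) * m * (s + 1) / (2 * s) = m * (n / 2 + n / (2 * s)) := by field_simp
      _ ≤ m * (n / 2 + ε / 4) := by gcongr
  set l := ((m - j : ℕ) : ℝ) with hl
  have hplace : ∀ v, δ v x ^ (m - j) + δ v y ≤ (2 * D) ^ m * q ^ (-(a v * l)) := fun v => by
    have h1 : δ v x ^ (m - j) ≤ D ^ m * q ^ (-(a v * l)) := by
      refine (pow_le_pow_left₀ (hδ v x) (hB x hxB v) _).trans ?_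
      rw [mul_pow, ← Real.rpow_natCast (q ^ _), ← Real.rpow_mul hq0.le, neg_mul]
      exact mul_le_mul_of_nonneg_right (pow_le_pow_right₀ hD (Nat.sub_le m j))
        (Real.rpow_nonneg hq0.le _)
    have h2 : δ v y ≤ D ^ m * q ^ (-(a v * l)) := by
      refine (hB y hyB v).trans (mul_le_mul (le_self_pow₀ hD (by omega)) ?_
        (Real.rpow_nonneg (Nat.cast_nonneg _) _) (by positivity))
      have h3 : q ^ (m : ℝ) ≤ (height y : ℝ) := by
        rw [Real.rpow_natCast, hq]; exact_mod_cast hlo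
      refine (Real.rpow_le_rpow_of_nonpos (Real.rpow_pos_of_pos hq0 _) h3
        (neg_nonpos.2 (ha v))).trans ?_
      rw [← Real.rpow_mul hq0.le]
      refine Real.rpow_le_rpow_of_exponent_le (by linarith) ?_
      have : l ≤ m := by rw [hl]; exact_mod_cast Nat.sub_le m j
      nlinarith [ha v]
    have hD2 : 2 * D ^ m ≤ (2 * D) ^ m := by
      rw [mul_pow]
      exact mul_le_mul_of_nonneg_right (le_self_pow₀ one_le_two (by omega)) (by positivity)
    calc _ ≤ 2 * D ^ m * q ^ (-(a v * l)) := by linarith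
      _ ≤ _ := mul_le_mul_of_nonneg_right hD2 (Real.rpow_nonneg hq0.le _)
  have hprod : ∏ v, (δ v x ^ (m - j) + δ v y) ≤ ((2 * D) ^ c) ^ m * q ^ (-(κ * l)) := by
    refine (Finset.prod_le_prod (fun v _ => add_nonneg (pow_nonneg (hδ v x) _) (hδ v y))
      fun v _ => hplace v).trans (le_of_eq ?_)
    rw [Finset.prod_mul_distrib, Finset.prod_const, Finset.card_univ, ← pow_mul, ← pow_mul,
      mul_comm m c, hκdef, Finset.sum_mul, ← Finset.sum_neg_distrib, Real.rpow_sum_of_pos hq0]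
  have hyd : (height y : ℝ) ≤ q ^ ((m : ℝ) + 1) := by
    rw [← Nat.cast_add_one, Real.rpow_natCast, hq]; exact_mod_cast hhi.le
  have hfinal : (1 : ℝ) ≤ q ^ ((N : ℝ) + ((m : ℝ) + 1) + γ * m + -(κ * l)) := by
    refine hge.trans ?_
    rw [Real.rpow_add hq0, Real.rpow_add hq0, Real.rpow_add hq0 (N : ℝ), Real.rpow_natCast q N]
    calc q ^ N * (height y : ℝ) * (K₀ ^ m * ∏ v, (δ v x ^ (m - j) + δ v y))
        ≤ q ^ N * q ^ ((m : ℝ) + 1) * (K₀ ^ m * (((2 * D) ^ c) ^ m * q ^ (-(κ * l)))) :=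
          mul_le_mul (mul_le_mul_of_nonneg_left hyd (by positivity))
            (mul_le_mul_of_nonneg_left hprod (by positivity))
            (mul_nonneg (by positivity) (Finset.prod_nonneg fun v _ =>
              add_nonneg (pow_nonneg (hδ v x) _) (hδ v y))) (by positivity)
      _ = q ^ N * q ^ ((m : ℝ) + 1) * (K ^ m * q ^ (-(κ * l))) := by rw [hKdef, mul_pow]; ring
      _ ≤ q ^ N * q ^ ((m : ℝ) + 1) * (q ^ (γ * m) * q ^ (-(κ * l))) := by gcongr
      _ = _ := by ring
  have hexp : (N : ℝ) + ((m : ℝ) + 1) + γ * m + -(κ * l) < 0 := by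
    have h1 : γ * (κ + 1) = ε / 4 := by rw [hγ]; field_simp
    rw [div_lt_iff₀ hε0] at hmreal
    have h2 : γ * (κ + 1) * m = ε / 4 * m := by rw [h1]
    have h3 : (m : ℝ) - j ≤ l := by
      rw [hl, sub_le_iff_le_add]; exact_mod_cast (show m ≤ m - j + j by omega)
    nlinarith
  exact absurd hfinal (not_le.2 (Real.rpow_lt_one_of_one_lt_of_neg (by linarith) hexp))

/-- The Thue–Mahler theorem for a monic polynomial, on the projective line. -/
theorem finite_of_monic (S : Finset ℕ) {μ : ℤ[X]} (hmon : μ.Monic) (hn3 : 3 ≤ μ.natDegree)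
    (hsep : (μ.map (Int.castRingHom ℚ)).Separable) :
    {t : ℚ | SUnit S (form μ t.num t.den)}.Finite := by
  classical
  set n := μ.natDegree with hn
  set T := S.filter Nat.Prime with hT
  have hSU : ∀ z, SUnit S z → SUnit T z := fun z h =>
    ⟨h.1, fun p hp hd => Finset.mem_filter.2 ⟨h.2 p hp hd, hp⟩⟩
  obtain ⟨δ, D, hD, hδ, hnear, hgap⟩ := exists_places T (fun p hp => (Finset.mem_filter.1 hp).2)
    hmon hn.symm hn3 hsep
  have : Nonempty (Option {p // p ∈ T} → Fin n) := ⟨fun _ => ⟨0, by omega⟩⟩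
  choose! r hr using hnear
  set c := Fintype.card (Option {p // p ∈ T}) with hc
  set M := 3 * c with hM
  have hc1 : 1 ≤ c := Fintype.card_pos
  have hM0 : (0 : ℝ) < M := by rw [hM]; exact_mod_cast (show 0 < 3 * c by omega)
  let pr : Option {p // p ∈ T} → ℚ → ℕ → Prop := fun v t k =>
    δ v (r t v) t ≤ D * (height t : ℝ) ^ (-((k : ℝ) / M))
  let k : ℚ → Option {p // p ∈ T} → Fin (n * M + 1) := fun t v =>
    ⟨Nat.findGreatest (pr v t) (n * M), Nat.lt_succ_of_le (Nat.findGreatest_le _)⟩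
  set B := {t : ℚ | SUnit S (form μ t.num t.den)} with hB
  by_contra hinf
  have hsub : B ⊆ ⋃ ρ : (Option {p // p ∈ T} → Fin n) × (Option {p // p ∈ T} → Fin (n * M + 1)),
      {t | t ∈ B ∧ (r t, k t) = ρ} := fun t ht => Set.mem_iUnion.2 ⟨_, ht, rfl⟩
  refine hinf (Set.Finite.subset (Set.finite_iUnion fun ρ => ?_) hsub)
  obtain ⟨ρ, κ⟩ := ρ
  rcases Set.eq_empty_or_nonempty {t | t ∈ B ∧ (r t, k t) = (ρ, κ)} with h | ⟨t₀, ht₀, he₀⟩
  · rw [h]; exact Set.finite_empty
  have hpr : ∀ t v, pr v t (k t v) := fun t v => by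
    show pr v t (Nat.findGreatest (pr v t) (n * M))
    refine Nat.findGreatest_spec (m := 0) (Nat.zero_le _) ?_
    show δ v (r t v) t ≤ _
    simpa using (hδ v (r t v) t).2
  refine finite_of_gap (n := n) (fun v => δ v (ρ v)) hD (fun v t => (hδ v _ t).1)
    (fun v => ((κ v : ℕ) : ℝ) / M) (fun v => by positivity) ?_ (B := _) ?_
    (fun s hs => (hgap s hs).imp fun K h => ⟨h.1, fun m hm t u =>
      (h.2 m hm t u).imp fun j h' => ⟨h'.1, h'.2 ρ⟩⟩)
  · obtain ⟨h1, h2⟩ := Prod.mk.inj he₀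
    subst h1 h2
    rw [← Finset.sum_div]
    have hn3' : (3 : ℝ) ≤ n := by exact_mod_cast hn3
    by_cases hfull : ∃ v, (k t₀ v : ℕ) = n * M
    · obtain ⟨v, hv⟩ := hfull
      have h1 : ((n * M : ℕ) : ℝ) ≤ ∑ w, ((k t₀ w : ℕ) : ℝ) := by
        refine (le_of_eq (congrArg (Nat.cast : ℕ → ℝ) hv.symm)).trans ?_
        exact Finset.single_le_sum (f := fun w => ((k t₀ w : ℕ) : ℝ))
          (fun w _ => Nat.cast_nonneg _) (Finset.mem_univ v)
      rw [lt_div_iff₀ hM0]
      push_cast at h1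
      refine lt_of_lt_of_le ?_ h1
      exact mul_lt_mul_of_pos_right (by linarith) hM0
    · push Not at hfull
      have hlt : ∀ v, D * (height t₀ : ℝ) ^ (-((((k t₀ v : ℕ) : ℝ) + 1) / M)) <
          δ v (r t₀ v) t₀ := fun v => by
        have hle : (k t₀ v : ℕ) + 1 ≤ n * M := by
          have := (k t₀ v).isLt
          have := hfull v
          omega
        have := Nat.findGreatest_is_greatest (P := pr v t₀)
          (show Nat.findGreatest (pr v t₀) (n * M) < (k t₀ v : ℕ) + 1 from Nat.lt_succ_self _) hle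
        simpa [pr] using this
      have hq1 : (1 : ℝ) ≤ height t₀ := by exact_mod_cast one_le_height t₀
      have hq0 : (0 : ℝ) < height t₀ := by linarith
      have hprod : D ^ c * (height t₀ : ℝ) ^ (-(((∑ v, ((k t₀ v : ℕ) : ℝ)) + c) / M)) <
          D * (height t₀ : ℝ) ^ (-(n : ℝ)) := by
        rw [Real.rpow_neg hq0.le (n : ℝ), Real.rpow_natCast, ← div_eq_mul_inv]
        refine lt_of_lt_of_le ?_ (hr t₀ (hSU _ ht₀))
        refine lt_of_eq_of_lt ?_ (Finset.prod_lt_prod_of_nonempty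
          (fun v _ => mul_pos (by linarith) (Real.rpow_pos_of_pos hq0 _)) (fun v _ => hlt v)
          Finset.univ_nonempty)
        rw [Finset.prod_mul_distrib, Finset.prod_const, Finset.card_univ,
          ← Real.rpow_sum_of_pos hq0, Finset.sum_neg_distrib, ← Finset.sum_div,
          Finset.sum_add_distrib]
        simp [hc]
      have hlt2 : (height t₀ : ℝ) ^ (-(((∑ v, ((k t₀ v : ℕ) : ℝ)) + c) / M)) <
          (height t₀ : ℝ) ^ (-(n : ℝ)) :=
        lt_of_mul_lt_mul_left ((mul_le_mul_of_nonneg_right (le_self_pow₀ hD (by omega))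
          (Real.rpow_nonneg hq0.le _)).trans_lt hprod) (by linarith)
      have hexp : (n : ℝ) < ((∑ v, ((k t₀ v : ℕ) : ℝ)) + c) / M := by
        by_contra hh
        exact absurd hlt2
          (not_lt.2 (Real.rpow_le_rpow_of_exponent_le hq1 (neg_le_neg (not_lt.1 hh))))
      rw [lt_div_iff₀ hM0] at hexp ⊢
      have hM' : (M : ℝ) = 3 * c := by rw [hM]; push_cast; ring
      nlinarith
  · rintro t ⟨-, he⟩ v
    obtain ⟨h1, h2⟩ := Prod.mk.inj he
    subst h1 h2
    exact hpr t v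

end FA.ThueMahler

end
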