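import Fermat.Agent.Thue.Equation
import Mathlib.Analysis.Normed.Field.Basic
import Mathlib.FieldTheory.IsAlgClosed.Basic
import Mathlib.RingTheory.Coprime.Lemmas

/-!
# The local estimates of the Thue–Mahler theorem

Over an algebraically closed normed field the value of a separable form at a rational point is
small only if the point is near a root, and the auxiliary form of Thue is small at two points near
the same root. The estimates are uniform in the field, so serve at every place.
-/

set_option autoImplicit false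

noncomputable section

namespace FA.ThueMahler

open Polynomial FA.Thue

/-- An integral polynomial of degree at most `N` as a binary form of degree `N`. -/
def homog (f : ℤ[X]) (N : ℕ) (x y : ℤ) : ℤ :=
  ∑ i ∈ Finset.range (N + 1), f.coeff i * x ^ i * y ^ (N - i)

theorem homog_natDegree (f : ℤ[X]) (x y : ℤ) : homog f f.natDegree x y = form f x y := rfl

theorem homog_cast {K : Type*} [Field K] {f : ℤ[X]} {N : ℕ} (hN : f.natDegree ≤ N) {x y : ℤ}
    (hy : (y : K) ≠ 0) :
    (homog f N x y : K) = (y : K) ^ N * (f.map (Int.castRingHom K)).eval ((x : K) / y) := by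
  rw [eval_eq_sum_range' (n := N + 1)
    (by have := natDegree_map_le (f := Int.castRingHom K) (p := f); omega), Finset.mul_sum, homog]
  push_cast
  refine Finset.sum_congr rfl fun i hi => ?_
  rw [coeff_map, eq_intCast, show (y : K) ^ N = (y : K) ^ (N - i) * (y : K) ^ i by
    rw [← pow_add, Nat.sub_add_cancel (Nat.lt_succ_iff.1 (Finset.mem_range.1 hi))], div_pow]
  field_simp

/-- A polynomial vanishing to order `m` at enough points is zero. -/
theorem eq_zero_of_vanish {K : Type*} [Field K] (s : Finset K) (m : ℕ) {f : K[X]}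
    (hdeg : f.natDegree < s.card * m) (h : ∀ β ∈ s, ∀ j < m, (hasseDeriv j f).eval β = 0) :
    f = 0 := by
  by_contra hf
  have hdvd : ∏ β ∈ s, (X - C β) ^ m ∣ f := Finset.prod_dvd_of_coprime
    (fun a _ b _ hab => (isCoprime_X_sub_C_of_isUnit_sub
      (sub_ne_zero.2 hab).isUnit).pow) (fun β hβ => pow_dvd_iff.2 (h β hβ))
  have hle := natDegree_le_of_dvd hdvd hf
  rw [natDegree_prod _ _ fun β _ => pow_ne_zero _ (X_sub_C_ne_zero β)] at hle
  simp only [natDegree_pow, natDegree_X_sub_C, mul_one, Finset.sum_const, smul_eq_mul] at hle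
  omega

/-- The Wronskian of polynomials `P, Q` of small degree, `P - β Q` vanishing to order `m` at
every root `β`, is not zero. -/
theorem wronskian_ne_zero_of_roots {K : Type*} [Field K] [CharZero K] {n : ℕ} {e : Fin n → K}
    (he : Function.Injective e) {m N : ℕ} (hN : N < (n - 1) * m) {P Q : ℤ[X]}
    (hPQ : P ≠ 0 ∨ Q ≠ 0) (hP : P.natDegree ≤ N) (hQ : Q.natDegree ≤ N)
    (hvan : ∀ i, ∀ j < m, (hasseDeriv j (P.map (Int.castRingHom K))).eval (e i) -
      e i * (hasseDeriv j (Q.map (Int.castRingHom K))).eval (e i) = 0) :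
    wronskian P Q ≠ 0 := by
  classical
  intro hW
  have hinj : Function.Injective (Int.castRingHom K) := Int.cast_injective
  have hzero : ∀ (F : ℤ[X]) (s : Finset (Fin n)), F.natDegree ≤ N → n - 1 ≤ s.card →
      (∀ i ∈ s, ∀ j < m, (hasseDeriv j (F.map (Int.castRingHom K))).eval (e i) = 0) → F = 0 := by
    intro F s hF hs h
    refine (Polynomial.map_eq_zero_iff hinj).1 (eq_zero_of_vanish (s.image e) m ?_ ?_)
    · rw [Finset.card_image_of_injective _ he]
      exact (natDegree_map_le.trans hF).trans_lt (hN.trans_le (Nat.mul_le_mul_right m hs))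
    · intro β hβ
      obtain ⟨i, hi, rfl⟩ := Finset.mem_image.1 hβ
      exact h i hi
  have hQ0 : Q ≠ 0 := by
    rintro rfl
    refine hPQ.resolve_right (by simp) (hzero P Finset.univ hP (by simp) fun i _ j hj => ?_)
    simpa using hvan i j hj
  obtain ⟨a, b, ha, hab⟩ := exists_mul_eq_mul hQ0 hW
  have ha' : (a : K) ≠ 0 := Int.cast_ne_zero.2 ha
  refine hQ0 (hzero Q (Finset.univ.filter fun i => (a : K) * e i ≠ b) hQ ?_ fun i hi j hj => ?_)
  · have h := Finset.card_filter_add_card_filter_not (s := (Finset.univ : Finset (Fin n)))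
      (fun i => (a : K) * e i ≠ b)
    have h1 : (Finset.univ.filter fun i => ¬((a : K) * e i ≠ b)).card ≤ 1 :=
      Finset.card_le_one.2 fun i hi k hk => he (mul_left_cancel₀ ha'
        ((not_not.1 (Finset.mem_filter.1 hi).2).trans (not_not.1 (Finset.mem_filter.1 hk).2).symm))
    rw [Finset.card_univ, Fintype.card_fin] at h
    omega
  · have h1 := congrArg (fun p : ℤ[X] =>
      (hasseDeriv j (p.map (Int.castRingHom K))).eval (e i)) hab
    have hmap : ∀ (z : ℤ) (F : ℤ[X]), (C z * F).map (Int.castRingHom K) =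
        (z : K) • F.map (Int.castRingHom K) := fun z F => by
      rw [Polynomial.map_mul, Polynomial.map_C, smul_eq_C_mul, eq_intCast (Int.castRingHom K)]
    simp only [hmap, map_smul, eval_smul, smul_eq_mul] at h1
    have h3 : ((b : K) - (a : K) * e i) *
        (hasseDeriv j (Q.map (Int.castRingHom K))).eval (e i) = 0 := by
      linear_combination (a : K) * hvan i j hj - h1
    exact (mul_eq_zero.1 h3).resolve_left (sub_ne_zero.2 (Finset.mem_filter.1 hi).2.symm)

section Normed

variable {L : Type*} [NormedField L] [CharZero L]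

/-- The local size of a rational point of the projective line. -/
def wt (L : Type*) [NormedField L] (t : ℚ) : ℝ :=
  max ‖(t.num : L)‖ ‖((t.den : ℤ) : L)‖

theorem wt_pos (t : ℚ) : 0 < wt L t :=
  lt_max_of_lt_right (norm_pos_iff.2 (Int.cast_ne_zero.2 (by exact_mod_cast t.den_nz)))

/-- The local distance of a rational point from `β`. -/
def delta (β : L) (t : ℚ) : ℝ :=
  ‖(t.num : L) - β * ((t.den : ℤ) : L)‖ / wt L t

theorem delta_nonneg (β : L) (t : ℚ) : 0 ≤ delta β t :=
  div_nonneg (norm_nonneg _) (wt_pos t).le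

theorem delta_le (β : L) (t : ℚ) : delta β t ≤ 1 + ‖β‖ := by
  rw [delta, div_le_iff₀ (wt_pos t), add_mul, one_mul]
  refine (norm_sub_le _ _).trans (add_le_add (le_max_left _ _) ?_)
  rw [norm_mul]
  exact mul_le_mul_of_nonneg_left (le_max_right _ _) (norm_nonneg _)

omit [CharZero L] in
theorem norm_eval_hasseDeriv_le (hL : ∀ z : ℤ, ‖(z : L)‖ ≤ |(z : ℝ)|) {H A : ℝ} {f : ℤ[X]}
    (hf : Small H f) {N : ℕ} (hN : f.natDegree ≤ N) (hA : 1 ≤ A) {x : L} (hx : ‖x‖ ≤ A) (j : ℕ) :
    ‖(hasseDeriv j (f.map (Int.castRingHom L))).eval x‖ ≤ (N + 1) * (2 ^ N * H * A ^ N) := by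
  have hdeg : (hasseDeriv j (f.map (Int.castRingHom L))).natDegree < N + 1 := by
    have := natDegree_hasseDeriv_le (f.map (Int.castRingHom L)) j
    have := natDegree_map_le (f := Int.castRingHom L) (p := f)
    omega
  rw [eval_eq_sum_range' hdeg]
  refine (norm_sum_le _ _).trans ?_
  refine (Finset.sum_le_card_nsmul _ _ (2 ^ N * H * A ^ N) fun i hi => ?_).trans
    (le_of_eq (by simp))
  rw [hasseDeriv_coeff, coeff_map, norm_mul, norm_mul, norm_pow, eq_intCast]
  have hiN : i ≤ N := Nat.lt_succ_iff.1 (Finset.mem_range.1 hi)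
  by_cases hc : f.coeff (i + j) = 0
  · rw [hc]
    simp only [Int.cast_zero, norm_zero, mul_zero, zero_mul]
    exact mul_nonneg (mul_nonneg (by positivity) hf.nonneg) (by positivity)
  · have hij : i + j ≤ N := (le_natDegree_of_ne_zero hc).trans hN
    have h1 : ‖(((i + j).choose j : ℕ) : L)‖ ≤ 2 ^ N := by
      rw [← Int.cast_natCast]
      refine (hL _).trans ?_
      rw [Int.cast_natCast, Nat.abs_cast]
      exact_mod_cast (Nat.choose_le_two_pow _ _).trans (Nat.pow_le_pow_right two_pos hij)
    exact mul_le_mul (mul_le_mul h1 ((hL _).trans (hf _)) (norm_nonneg _) (by positivity))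
      ((pow_le_pow_left₀ (norm_nonneg x) hx i).trans (pow_le_pow_right₀ hA hiN))
      (by positivity) (mul_nonneg (by positivity) hf.nonneg)

/-- Thue's auxiliary form is small at two points near the same root. -/
theorem norm_gap_le (hL : ∀ z : ℤ, ‖(z : L)‖ ≤ |(z : ℝ)|) {β : L} {D H : ℝ}
    (hD : D = 1 + ‖β‖) {P Q : ℤ[X]} (hP : Small H P) (hQ : Small H Q) {N : ℕ}
    (hPN : P.natDegree ≤ N) (hQN : Q.natDegree ≤ N) {m : ℕ}
    (hvan : ∀ j < m, (hasseDeriv j (P.map (Int.castRingHom L))).eval β -
      β * (hasseDeriv j (Q.map (Int.castRingHom L))).eval β = 0) (t u : ℚ) (j : ℕ) :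
    ‖(((u.den : ℤ) * homog (hasseDeriv j P) N t.num t.den -
        u.num * homog (hasseDeriv j Q) N t.num t.den : ℤ) : L)‖ ≤
      H * (32 * D ^ 2) ^ N * (2 * D) * wt L t ^ N * wt L u *
        (delta β t ^ (m - j) + delta β u) := by
  set p := P.map (Int.castRingHom L) with hp
  set r := Q.map (Int.castRingHom L) with hr
  set g := hasseDeriv j (p - C β * r) with hg
  set x : L := (t.num : L) with hx
  set y : L := ((t.den : ℤ) : L) with hy
  have hy0 : y ≠ 0 := Int.cast_ne_zero.2 (by exact_mod_cast t.den_nz)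
  set w := wt L t with hw
  set δ := delta β t with hδ
  have hw0 : 0 < w := wt_pos t
  have hδ0 : 0 ≤ δ := delta_nonneg β t
  have hD1 : 1 ≤ D := by rw [hD]; linarith [norm_nonneg β]
  have hβD : ‖β‖ ≤ D := by rw [hD]; linarith
  have hH : 0 ≤ H := hP.nonneg
  have hN4 : ((N : ℝ) + 1) ≤ 2 ^ N := by exact_mod_cast Nat.lt_two_pow_self (n := N)
  have hev : ∀ (i : ℕ) (z : L), (hasseDeriv i (p - C β * r)).eval z =
      (hasseDeriv i p).eval z - β * (hasseDeriv i r).eval z := fun i z => by
    rw [map_sub, ← smul_eq_C_mul, map_smul, eval_sub, eval_smul, smul_eq_mul]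
  have hgdeg : g.natDegree ≤ N := by
    refine (natDegree_hasseDeriv_le _ _).trans (le_trans (Nat.sub_le _ _) ?_)
    refine (natDegree_sub_le _ _).trans (max_le (natDegree_map_le.trans hPN) ?_)
    exact (natDegree_C_mul_le _ _).trans (natDegree_map_le.trans hQN)
  set B : ℝ := 8 ^ N * H * D ^ N * D with hB
  have hB0 : 0 ≤ B := mul_nonneg (mul_nonneg (mul_nonneg (by positivity) hH) (by positivity))
    (by linarith)
  have hcoef : ∀ i ≤ N, ‖(taylor β g).coeff i‖ * δ ^ i ≤ B * D ^ N * δ ^ (m - j) := by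
    intro i hiN
    have hcomp : hasseDeriv i g = (((i + j).choose i : ℕ) : L) •
        hasseDeriv (i + j) (p - C β * r) := by
      rw [hg, ← LinearMap.comp_apply, hasseDeriv_comp, LinearMap.smul_apply,
        ← Nat.cast_smul_eq_nsmul L]
    rw [taylor_coeff, hcomp, eval_smul, smul_eq_mul, hev, norm_mul]
    by_cases hij : i + j < m
    · rw [hvan _ hij, norm_zero, mul_zero, zero_mul]
      exact mul_nonneg (mul_nonneg hB0 (by positivity)) (by positivity)
    · by_cases hN' : N < i + j
      · have h0 : ∀ {f : ℤ[X]}, f.natDegree ≤ N →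
            hasseDeriv (i + j) (f.map (Int.castRingHom L)) = 0 := fun {f} hf =>
          hasseDeriv_eq_zero_of_lt_natDegree _ _
            ((natDegree_map_le.trans hf).trans_lt hN')
        simp only [hp, hr, h0 hPN, h0 hQN, eval_zero, mul_zero, sub_self, norm_zero, zero_mul]
        exact mul_nonneg (mul_nonneg hB0 (by positivity)) (by positivity)
      · have hch : ‖(((i + j).choose i : ℕ) : L)‖ ≤ 2 ^ N := by
          rw [← Int.cast_natCast]
          refine (hL _).trans ?_
          rw [Int.cast_natCast, Nat.abs_cast]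
          exact_mod_cast (Nat.choose_le_two_pow _ _).trans
            (Nat.pow_le_pow_right two_pos (not_lt.1 hN'))
        have h1 := norm_eval_hasseDeriv_le hL hP hPN hD1 hβD (i + j)
        have h2 := norm_eval_hasseDeriv_le hL hQ hQN hD1 hβD (i + j)
        rw [mul_assoc B]
        refine mul_le_mul ?_ ?_ (by positivity) hB0
        · calc ‖(((i + j).choose i : ℕ) : L)‖ *
              ‖(hasseDeriv (i + j) p).eval β - β * (hasseDeriv (i + j) r).eval β‖
              ≤ 2 ^ N * ((N + 1) * (2 ^ N * H * D ^ N) * D) := by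
                refine mul_le_mul hch ((norm_sub_le _ _).trans ?_) (norm_nonneg _) (by positivity)
                rw [norm_mul]
                calc _ ≤ (N + 1) * (2 ^ N * H * D ^ N) +
                      ‖β‖ * ((N + 1) * (2 ^ N * H * D ^ N)) :=
                      add_le_add h1 (mul_le_mul_of_nonneg_left h2 (norm_nonneg _))
                  _ = (N + 1) * (2 ^ N * H * D ^ N) * D := by rw [hD]; ring
            _ ≤ 2 ^ N * (2 ^ N * (2 ^ N * H * D ^ N) * D) := by gcongr
            _ = B := by rw [hB, show (8 : ℝ) = 2 * 2 * 2 by norm_num, mul_pow, mul_pow]; ring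
        · have hi' : i = (m - j) + (i - (m - j)) := by omega
          rw [hi', pow_add, mul_comm (D ^ N)]
          refine mul_le_mul_of_nonneg_left ?_ (by positivity)
          exact (pow_le_pow_left₀ hδ0 ((delta_le β t).trans_eq hD.symm) _).trans
            (pow_le_pow_right₀ hD1 (by omega))
  have hgx : ‖y ^ N * g.eval (x / y)‖ ≤ 2 ^ N * (B * D ^ N) * w ^ N * δ ^ (m - j) := by
    have ht : g.eval (x / y) = (taylor β g).eval (x / y - β) := by
      rw [taylor_eval, sub_add_cancel]
    rw [ht, eval_eq_sum_range' (n := N + 1) (by rw [natDegree_taylor]; omega), Finset.mul_sum]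
    refine (norm_sum_le _ _).trans ((Finset.sum_le_card_nsmul _ _
      (B * D ^ N * δ ^ (m - j) * w ^ N) fun i hi => ?_).trans ?_)
    · have hiN : i ≤ N := Nat.lt_succ_iff.1 (Finset.mem_range.1 hi)
      have e : y ^ N * ((taylor β g).coeff i * (x / y - β) ^ i) =
          (taylor β g).coeff i * (x - β * y) ^ i * y ^ (N - i) := by
        rw [show y ^ N = y ^ (N - i) * y ^ i by rw [← pow_add, Nat.sub_add_cancel hiN],
          show (x - β * y) ^ i = y ^ i * (x / y - β) ^ i by
            rw [← mul_pow]; field_simp]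
        ring
      rw [e, norm_mul, norm_mul, norm_pow, norm_pow]
      have hxy : ‖x - β * y‖ = δ * w := by
        rw [hδ, delta, ← hx, ← hy, ← hw, div_mul_cancel₀ _ hw0.ne']
      rw [hxy, mul_pow]
      calc ‖(taylor β g).coeff i‖ * (δ ^ i * w ^ i) * ‖y‖ ^ (N - i)
          ≤ ‖(taylor β g).coeff i‖ * (δ ^ i * w ^ i) * w ^ (N - i) := by
            gcongr; exact le_max_right _ _
        _ = ‖(taylor β g).coeff i‖ * δ ^ i * w ^ N := by
            rw [show w ^ N = w ^ i * w ^ (N - i) by rw [← pow_add, Nat.add_sub_cancel' hiN]]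
            ring
        _ ≤ _ := mul_le_mul_of_nonneg_right (hcoef i hiN) (by positivity)
    · rw [Finset.card_range, nsmul_eq_mul]
      push_cast
      calc ((N : ℝ) + 1) * (B * D ^ N * δ ^ (m - j) * w ^ N)
          ≤ 2 ^ N * (B * D ^ N * δ ^ (m - j) * w ^ N) :=
            mul_le_mul_of_nonneg_right hN4
              (mul_nonneg (mul_nonneg (mul_nonneg hB0 (by positivity)) (by positivity))
                (by positivity))
        _ = _ := by ring
  have hQj : (hasseDeriv j Q).natDegree ≤ N := (natDegree_hasseDeriv_le Q j).trans (by omega)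
  have hPj : (hasseDeriv j P).natDegree ≤ N := (natDegree_hasseDeriv_le P j).trans (by omega)
  have hhom : ‖(homog (hasseDeriv j Q) N t.num t.den : L)‖ ≤ 4 ^ N * H * w ^ N := by
    rw [homog]
    simp only [Int.cast_sum, Int.cast_mul, Int.cast_pow]
    refine (norm_sum_le _ _).trans ((Finset.sum_le_card_nsmul _ _ (2 ^ N * H * w ^ N)
      fun i hi => ?_).trans ?_)
    · have hiN : i ≤ N := Nat.lt_succ_iff.1 (Finset.mem_range.1 hi)
      rw [norm_mul, norm_mul, norm_pow, norm_pow,
        show w ^ N = w ^ i * w ^ (N - i) by rw [← pow_add, Nat.add_sub_cancel' hiN], mul_assoc]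
      refine mul_le_mul ?_ (mul_le_mul (pow_le_pow_left₀ (norm_nonneg _) (le_max_left _ _) _)
        (pow_le_pow_left₀ (norm_nonneg _) (le_max_right _ _) _) (by positivity) (by positivity))
        (by positivity) (mul_nonneg (by positivity) hH)
      refine (hL _).trans ?_
      rw [hasseDeriv_coeff]
      push_cast
      rw [abs_mul, Nat.abs_cast]
      by_cases hc : Q.coeff (i + j) = 0
      · rw [hc, Int.cast_zero, abs_zero, mul_zero]; positivity
      · refine mul_le_mul ?_ (hQ _) (abs_nonneg _) (by positivity)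
        exact_mod_cast (Nat.choose_le_two_pow _ _).trans
          (Nat.pow_le_pow_right two_pos ((le_natDegree_of_ne_zero hc).trans hQN))
    · rw [Finset.card_range, nsmul_eq_mul]
      push_cast
      calc ((N : ℝ) + 1) * (2 ^ N * H * w ^ N) ≤ 2 ^ N * (2 ^ N * H * w ^ N) :=
            mul_le_mul_of_nonneg_right hN4
              (mul_nonneg (mul_nonneg (by positivity) hH) (by positivity))
        _ = _ := by rw [show (4 : ℝ) = 2 * 2 by norm_num, mul_pow]; ring
  have hsplit : (((u.den : ℤ) * homog (hasseDeriv j P) N t.num t.den -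
      u.num * homog (hasseDeriv j Q) N t.num t.den : ℤ) : L) =
      ((u.den : ℤ) : L) * (y ^ N * g.eval (x / y)) +
        (β * ((u.den : ℤ) : L) - (u.num : L)) * (homog (hasseDeriv j Q) N t.num t.den : L) := by
    rw [hg, hev, Int.cast_sub, Int.cast_mul, Int.cast_mul, homog_cast hPj hy0, homog_cast hQj hy0,
      hp, hr, map_hasseDeriv, map_hasseDeriv, ← hx, ← hy]
    ring
  rw [hsplit]
  refine (norm_add_le _ _).trans ?_
  rw [norm_mul, norm_mul (β * _ - _)]
  have hwu := wt_pos (L := L) u
  have hu : ‖β * ((u.den : ℤ) : L) - (u.num : L)‖ = delta β u * wt L u := by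
    rw [norm_sub_rev, delta, div_mul_cancel₀ _ hwu.ne']
  rw [hu, mul_add]
  refine add_le_add ?_ ?_
  · calc ‖((u.den : ℤ) : L)‖ * ‖y ^ N * g.eval (x / y)‖
        ≤ wt L u * (2 ^ N * (B * D ^ N) * w ^ N * δ ^ (m - j)) :=
          mul_le_mul (le_max_right _ _) hgx (norm_nonneg _) hwu.le
      _ = H * (16 * D ^ 2) ^ N * D * w ^ N * wt L u * δ ^ (m - j) := by
          rw [hB, mul_pow (16 : ℝ), show (16 : ℝ) = 2 * 8 by norm_num, mul_pow,
            show (D ^ 2) ^ N = D ^ N * D ^ N by rw [sq, mul_pow]]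
          ring
      _ ≤ _ := by gcongr <;> linarith
  · calc delta β u * wt L u * ‖(homog (hasseDeriv j Q) N t.num t.den : L)‖
        ≤ delta β u * wt L u * (4 ^ N * H * w ^ N) :=
          mul_le_mul_of_nonneg_left hhom (mul_nonneg (delta_nonneg _ _) hwu.le)
      _ = H * 4 ^ N * 1 * w ^ N * wt L u * delta β u := by ring
      _ ≤ _ := by
          have hd0 := delta_nonneg β u
          have h4 : (4 : ℝ) ≤ 32 * D ^ 2 := by nlinarith
          gcongr
          linarith

/-- The value of a separable form is small only near a root. -/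
theorem exists_delta_le [IsAlgClosed L] {μ : ℤ[X]} (hmon : μ.Monic) {n : ℕ}
    (hn : μ.natDegree = n) (hn0 : 0 < n) (hsep : (μ.map (Int.castRingHom L)).Separable) :
    ∃ (e : Fin n → L) (D : ℝ), 1 ≤ D ∧ Function.Injective e ∧ (∀ i, aeval (e i) μ = 0) ∧
      (∀ i, 1 + ‖e i‖ ≤ D) ∧
      ∀ t : ℚ, ∃ i, delta (e i) t ≤ D * (‖(form μ t.num t.den : L)‖ / wt L t ^ n) := by
  classical
  set g := μ.map (Int.castRingHom L) with hg
  have hgdeg : g.natDegree = n := by rw [hg, hmon.natDegree_map]; exact hn
  have hgmon : g.Monic := hmon.map _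
  have hsp := IsAlgClosed.splits g
  have hnd : g.roots.Nodup := nodup_roots hsep
  have hcard : g.roots.toFinset.card = n := by
    rw [Multiset.toFinset_card_of_nodup hnd, ← hgdeg]
    exact (hsp.natDegree_eq_card_roots).symm
  set eqv := (Finset.equivFinOfCardEq hcard).symm with heqv
  set e : Fin n → L := fun i => (eqv i : L) with he
  have hinj : Function.Injective e := Subtype.val_injective.comp eqv.injective
  have himg : Finset.univ.image e = g.roots.toFinset := by
    ext z
    constructor
    · simp only [Finset.mem_image, Finset.mem_univ, true_and]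
      rintro ⟨i, rfl⟩
      exact (eqv i).2
    · intro hz
      exact Finset.mem_image.2 ⟨eqv.symm ⟨z, hz⟩, Finset.mem_univ _, by simp [he]⟩
  have hprod : g = ∏ i, (X - C (e i)) := by
    conv_lhs => rw [hsp.eq_prod_roots, hgmon.leadingCoeff, C_1, one_mul]
    rw [← Finset.prod_image (f := fun z => X - C z) (fun a _ b _ h => hinj h), himg,
      Finset.prod_eq_multiset_prod, Multiset.toFinset_val, hnd.dedup]
  have hroot : ∀ i, aeval (e i) μ = 0 := fun i => by
    have h : g.eval (e i) = 0 := by
      rw [hprod, eval_prod]; exact Finset.prod_eq_zero (Finset.mem_univ i) (by simp)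
    rwa [hg, eval_map, ← algebraMap_int_eq, ← aeval_def] at h
  let c : Fin n → Fin n → ℝ := fun k i => ‖e k - e i‖ / (2 * (1 + ‖e i‖ + ‖e k‖))
  let P : Fin n → ℝ := fun k => ∏ i ∈ Finset.univ.erase k, c k i
  have hc : ∀ k, ∀ i ∈ Finset.univ.erase k, 0 < c k i := fun k i hi =>
    div_pos (norm_pos_iff.2 (sub_ne_zero.2 fun h => (Finset.mem_erase.1 hi).1 (hinj h).symm))
      (by positivity)
  have hP : ∀ k, 0 < P k := fun k => Finset.prod_pos (hc k)
  have hsum : 0 ≤ ∑ k, (1 / P k + ‖e k‖) :=
    Finset.sum_nonneg fun k _ => add_nonneg (one_div_pos.2 (hP k)).le (norm_nonneg _)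
  have hle : ∀ k, 1 / P k + ‖e k‖ ≤ ∑ k, (1 / P k + ‖e k‖) := fun k =>
    Finset.single_le_sum (f := fun k => 1 / P k + ‖e k‖)
      (fun i _ => add_nonneg (one_div_pos.2 (hP i)).le (norm_nonneg _)) (Finset.mem_univ k)
  refine ⟨e, 1 + ∑ k, (1 / P k + ‖e k‖), le_add_of_nonneg_right hsum, hinj, hroot,
    fun k => by linarith [hle k, one_div_pos.2 (hP k)], fun t => ?_⟩
  set x : L := (t.num : L) with hx
  set y : L := ((t.den : ℤ) : L) with hy
  have hy0 : y ≠ 0 := Int.cast_ne_zero.2 (by exact_mod_cast t.den_nz)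
  have hform : (form μ t.num t.den : L) = ∏ i, (x - e i * y) := by
    rw [← homog_natDegree, homog_cast le_rfl hy0, ← hg, hprod, eval_prod, ← hy, ← hx, hn,
      show y ^ n = ∏ _i : Fin n, y by simp, ← Finset.prod_mul_distrib]
    refine Finset.prod_congr rfl fun i _ => ?_
    simp
    field_simp
  obtain ⟨k, -, hmin⟩ := Finset.univ.exists_min_image (fun i => ‖x - e i * y‖)
    ⟨⟨0, hn0⟩, Finset.mem_univ _⟩
  refine ⟨k, ?_⟩
  have hw0 : 0 < wt L t := wt_pos t
  have hlow : P k * wt L t ^ (n - 1) ≤ ∏ i ∈ Finset.univ.erase k, ‖x - e i * y‖ := by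
    rw [show wt L t ^ (n - 1) = ∏ _i ∈ Finset.univ.erase k, wt L t by
      simp [Finset.card_erase_of_mem], ← Finset.prod_mul_distrib]
    refine Finset.prod_le_prod (fun i hi => (mul_pos (hc k i hi) hw0).le) fun i hi => ?_
    have hm := hmin i (Finset.mem_univ i)
    simp only [c]
    rw [div_mul_eq_mul_div, div_le_iff₀ (by positivity), wt, mul_max_of_nonneg _ _ (norm_nonneg _),
      ← norm_mul, ← norm_mul]
    have hb := mul_nonneg (norm_nonneg (x - e i * y)) (norm_nonneg (e i))
    have hb' := mul_nonneg (norm_nonneg (x - e i * y)) (norm_nonneg (e k))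
    refine max_le ?_ ?_
    · rw [← hx, show (e k - e i) * x = e k * (x - e i * y) - e i * (x - e k * y) by ring]
      refine (norm_sub_le _ _).trans ?_
      rw [norm_mul, norm_mul]
      linarith [mul_le_mul_of_nonneg_left hm (norm_nonneg (e i)), norm_nonneg (x - e i * y)]
    · rw [← hy, show (e k - e i) * y = (x - e i * y) - (x - e k * y) by ring]
      exact (norm_sub_le _ _).trans (by linarith [norm_nonneg (x - e i * y)])
  rw [hform, norm_prod, ← Finset.mul_prod_erase _ _ (Finset.mem_univ k), delta, ← hx, ← hy]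
  have hD : 1 ≤ (1 + ∑ k, (1 / P k + ‖e k‖)) * P k := by
    have h := mul_le_mul_of_nonneg_right (hle k) (hP k).le
    rw [add_mul, one_div_mul_cancel (hP k).ne'] at h
    nlinarith [mul_nonneg (norm_nonneg (e k)) (hP k).le, (hP k).le]
  have hwn : wt L t ^ n = wt L t ^ (n - 1) * wt L t := by
    rw [← pow_succ, Nat.sub_add_cancel hn0]
  rw [div_le_iff₀ hw0, hwn]
  field_simp
  calc ‖x - e k * y‖ * wt L t ^ (n - 1)
      ≤ ‖x - e k * y‖ * wt L t ^ (n - 1) * ((1 + ∑ k, (1 / P k + ‖e k‖)) * P k) :=
        le_mul_of_one_le_right (by positivity) hD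
    _ = (1 + ∑ k, (1 / P k + ‖e k‖)) * ‖x - e k * y‖ * (P k * wt L t ^ (n - 1)) := by ring
    _ ≤ (1 + ∑ k, (1 / P k + ‖e k‖)) * ‖x - e k * y‖ *
          ∏ i ∈ Finset.univ.erase k, ‖x - e i * y‖ :=
        mul_le_mul_of_nonneg_left hlow (mul_nonneg (by linarith) (norm_nonneg _))
    _ = _ := by ring_nf

end Normed

end FA.ThueMahler

end
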