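import Fermat.Agent.ThueMahler.CubicValues

/-!
# `S`-integral points on Mordell's curves

For `x = X / d²`, `y = Y / d³` on `y² = x³ + k` some cubic form of discriminant `-108 k` takes
the value `d³` at `(1, 0)`, with Hessian `9 X` there; so it gives a solution of one of finitely
many Thue–Mahler equations, from which `x` is recovered.
-/

set_option autoImplicit false

noncomputable section

namespace FA.ThueMahler

open FA.Thue

/-- **`y² = x³ + k` has finitely many `S`-integral points.** -/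
theorem finite_sIntegral_mordell (S : Finset ℕ) {k : ℤ} (hk : k ≠ 0) :
    {p : ℚ × ℚ | p.2 ^ 2 = p.1 ^ 3 + k ∧
      ∀ q : ℕ, q.Prime → q ∣ p.1.den → q ∈ S}.Finite := by
  classical
  obtain ⟨R, hRfin, hR⟩ := exists_representatives (D := -108 * k) (by omega)
  set T : Set ℚ := ⋃ G ∈ {G ∈ R | G.disc ≠ 0}, (fun t : ℤ × ℤ =>
    (((G.hess t.1 t.2 : ℤ) : ℚ) / 9) ^ 3 / ((G.eval t.1 t.2 : ℤ) : ℚ) ^ 2) ''
      {t : ℤ × ℤ | IsCoprime t.1 t.2 ∧ SUnit S (G.eval t.1 t.2)} with hT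
  have hTfin : T.Finite := (hRfin.subset fun G hG => hG.1).biUnion fun G hG =>
    (finite_cubic_values S hG.2).image _
  have hXfin : {x : ℚ | x ^ 3 ∈ T}.Finite :=
    hTfin.preimage ((Odd.strictMono_pow (by decide : Odd 3)).injective.injOn)
  refine Set.Finite.subset (hXfin.biUnion fun x _ =>
    (show {p : ℚ × ℚ | p.1 = x ∧ p.2 ^ 2 = x ^ 3 + k}.Finite from ?_)) ?_
  · by_cases h : ∃ y : ℚ, y ^ 2 = x ^ 3 + k
    · obtain ⟨y, hy⟩ := h
      refine (Set.toFinite {(x, y), (x, -y)}).subset fun p hp => ?_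
      obtain ⟨h1, h2⟩ := hp
      rcases sq_eq_sq_iff_eq_or_eq_neg.1 (h2.trans hy.symm) with h | h
      · exact Or.inl (Prod.ext h1 h)
      · exact Or.inr (Prod.ext h1 h)
    · refine Set.finite_empty.subset fun p hp => ?_
      exact absurd ⟨p.2, hp.2⟩ h
  rintro ⟨x, y⟩ ⟨hxy, hden⟩
  refine Set.mem_biUnion (x := x) ?_ ⟨rfl, hxy⟩
  show x ^ 3 ∈ T
  simp only at hxy hden
  have e : y.num ^ 2 * (x.den : ℤ) ^ 3 = (x.num ^ 3 + k * (x.den : ℤ) ^ 3) * (y.den : ℤ) ^ 2 := by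
    have hxd : (x.den : ℚ) ≠ 0 := by exact_mod_cast x.den_nz
    have hyd : (y.den : ℚ) ≠ 0 := by exact_mod_cast y.den_nz
    rw [← x.num_div_den, ← y.num_div_den] at hxy
    field_simp at hxy
    exact_mod_cast (by linear_combination hxy : (y.num : ℚ) ^ 2 * (x.den : ℚ) ^ 3 =
      ((x.num : ℚ) ^ 3 + k * (x.den : ℚ) ^ 3) * (y.den : ℚ) ^ 2)
  have hpow : x.den ^ 3 = y.den ^ 2 := by
    have h1 : IsCoprime ((x.den : ℤ) ^ 3) (x.num ^ 3 + k * (x.den : ℤ) ^ 3) :=
      (Rat.isCoprime_num_den x).symm.pow.add_mul_right_right _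
    have h2 : IsCoprime ((y.den : ℤ) ^ 2) (y.num ^ 2) := (Rat.isCoprime_num_den y).symm.pow
    refine Nat.dvd_antisymm (Int.natCast_dvd_natCast.1 ?_) (Int.natCast_dvd_natCast.1 ?_) <;>
      push_cast
    · exact h1.dvd_of_dvd_mul_left ⟨y.num ^ 2, by linarith⟩
    · exact h2.dvd_of_dvd_mul_left ⟨x.num ^ 3 + k * (x.den : ℤ) ^ 3, by linarith⟩
  obtain ⟨d, hxd, hyd⟩ := Nat.exists_eq_pow_of_exponent_coprime_of_pow_eq_pow
    (by decide : Nat.Coprime 3 2) hpow
  have hd0 : (d : ℤ) ≠ 0 := by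
    intro h; exact x.den_nz (by rw [hxd]; simp [Int.natCast_eq_zero.1 h])
  set X := x.num with hX
  set Y := y.num with hY
  have hYX : Y ^ 2 = X ^ 3 + k * (d : ℤ) ^ 6 := by
    rw [hxd, hyd] at e
    push_cast at e
    exact mul_right_cancel₀ (pow_ne_zero 6 hd0) (by linear_combination e)
  have hdX : IsCoprime X ((d : ℤ) ^ 6) := by
    have h := Rat.isCoprime_num_den x
    rw [hxd, Nat.cast_pow] at h
    simpa [← pow_mul] using h.pow_right (n := 3)
  obtain ⟨u, v, huv⟩ := hdX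
  set β := Y * u with hβ
  set g := -(X * v * (u * X + 1)) + k * u ^ 2 with hg
  have hβX : β ^ 2 - X = (d : ℤ) ^ 6 * g := by
    rw [hβ, hg]
    linear_combination u ^ 2 * hYX + X * (u * X + 1) * huv
  set F : CubicForm :=
    ⟨(d : ℤ) ^ 3, 3 * β, 3 * ((d : ℤ) ^ 3 * g), β * g + 2 * Y * v⟩ with hF
  have hA : F.b ^ 2 - 3 * F.a * F.c = 9 * X := by
    simp only [hF]; linear_combination 9 * hβX
  have hdisc : F.disc = -108 * k := by
    have hs := F.syzygy
    have hG : 2 * F.b ^ 3 - 9 * F.a * F.b * F.c + 27 * F.a ^ 2 * F.d = 54 * Y := by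
      simp only [hF]
      linear_combination 54 * β * hβX + 54 * Y * huv
    rw [hA, hG] at hs
    refine mul_left_cancel₀ (show (27 : ℤ) * F.a ^ 2 ≠ 0 from
      mul_ne_zero (by norm_num) (pow_ne_zero _ (pow_ne_zero _ hd0))) ?_
    simp only [hF] at hs ⊢
    linear_combination -hs - 2916 * hYX
  obtain ⟨p, q, r, s, hdet, hm⟩ := hR F hdisc
  set G := F.act p q r s with hG
  have hGD : G.disc ≠ 0 := by
    rw [hG, CubicForm.disc_act, hdet, one_pow, one_mul, hdisc]; omega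
  have h10 : p * s + q * -r = 1 := by linear_combination hdet
  have h01 : r * s + s * -r = 0 := by ring
  have heval : G.eval s (-r) = (d : ℤ) ^ 3 := by
    rw [hG, CubicForm.eval_act]
    simp only [Int.cast_id]
    rw [h10, h01]
    simp [hF, CubicForm.eval]
  have hhess : G.hess s (-r) = 9 * X := by
    rw [hG, CubicForm.hess_act]
    simp only [Int.cast_id]
    rw [hdet, h10, h01, ← hA]
    simp [CubicForm.hess]
  refine Set.mem_biUnion (x := G) ⟨hm, hGD⟩ ⟨(s, -r), ⟨⟨p, q, h10⟩, ?_⟩, ?_⟩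
  · show SUnit S (G.eval s (-r))
    rw [heval]
    refine ⟨pow_ne_zero _ hd0, fun l hl hld => hden l hl ?_⟩
    rw [hxd]
    exact dvd_pow (Int.natCast_dvd_natCast.1 ((Nat.prime_iff_prime_int.1 hl).dvd_of_dvd_pow hld))
      two_ne_zero
  · show (((G.hess s (-r) : ℤ) : ℚ) / 9) ^ 3 / ((G.eval s (-r) : ℤ) : ℚ) ^ 2 = x ^ 3
    rw [heval, hhess]
    conv_rhs => rw [← x.num_div_den, hxd]
    push_cast
    rw [hX]
    ring

end FA.ThueMahler

end
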