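import Fermat.Agent.ThueMahler.Local
import Mathlib.NumberTheory.Padics.Complex
import Mathlib.Analysis.Complex.Polynomial.Basic

/-!
# The places of the Thue–Mahler theorem

The local estimates at infinity and at the primes of a finite set are multiplied by the product
formula.
-/

set_option autoImplicit false

noncomputable section

namespace FA.ThueMahler

open Polynomial FA.Thue

/-- A non-zero integer whose prime factors all lie in `S`. -/
def SUnit (S : Finset ℕ) (z : ℤ) : Prop :=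
  z ≠ 0 ∧ ∀ p : ℕ, p.Prime → (p : ℤ) ∣ z → p ∈ S

/-- The part of `z` supported on the primes in `S`. -/
theorem prod_padicNorm (S : Finset ℕ) (hS : ∀ p ∈ S, p.Prime) {z : ℤ} (hz : z ≠ 0) :
    ∃ k : ℕ, k ∣ z.natAbs ∧ ∏ p : {p // p ∈ S}, (padicNorm p.1 (z : ℚ) : ℝ) = 1 / k ∧
      (SUnit S z → k = z.natAbs) := by
  classical
  have hz' : z.natAbs ≠ 0 := Int.natAbs_ne_zero.2 hz
  have hval : ∀ p ∈ S, (padicNorm p (z : ℚ) : ℝ) =
      1 / ((p ^ z.natAbs.factorization p : ℕ) : ℝ) := fun p hp => by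
    rw [padicNorm.eq_zpow_of_nonzero (Int.cast_ne_zero.2 hz), padicValRat.of_int, zpow_neg,
      zpow_natCast, show padicValInt p z = z.natAbs.factorization p by
        rw [Nat.factorization_def _ (hS p hp)]; rfl]
    push_cast
    rw [one_div]
  refine ⟨∏ p ∈ S, p ^ z.natAbs.factorization p, ?_, ?_, fun h => ?_⟩
  · rw [← Finset.prod_filter_mul_prod_filter_not S (· ∈ z.natAbs.primeFactors),
      Finset.prod_eq_one (s := S.filter fun p => p ∉ z.natAbs.primeFactors) fun p hp => by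
        rw [Finsupp.notMem_support_iff.1 (Nat.support_factorization _ ▸ (Finset.mem_filter.1 hp).2),
          pow_zero], mul_one]
    conv_rhs => rw [← Nat.prod_factorization_pow_eq_self hz']
    rw [Finsupp.prod, Nat.support_factorization]
    exact Finset.prod_dvd_prod_of_subset _ _ _ fun p hp => (Finset.mem_filter.1 hp).2
  · rw [Finset.prod_coe_sort S fun p => (padicNorm p (z : ℚ) : ℝ), Finset.prod_congr rfl hval]
    simp [Finset.prod_inv_distrib]
  · conv_rhs => rw [← Nat.prod_factorization_pow_eq_self hz']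
    rw [Finsupp.prod, Nat.support_factorization]
    refine (Finset.prod_subset (fun p hp => ?_) fun p _ hp => ?_).symm
    · exact h.2 p (Nat.prime_of_mem_primeFactors hp)
        (Int.natCast_dvd.2 (Nat.dvd_of_mem_primeFactors hp))
    · rw [Finsupp.notMem_support_iff.1 (Nat.support_factorization _ ▸ hp), pow_zero]

theorem norm_intCast_padicAlgCl {p : ℕ} [Fact p.Prime] (z : ℤ) :
    ‖(z : PadicAlgCl p)‖ = (padicNorm p (z : ℚ) : ℝ) := by
  rw [← map_intCast (algebraMap ℚ_[p] (PadicAlgCl p)), PadicAlgCl.norm_extends, ← Rat.cast_intCast,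
    Padic.eq_padicNorm]

theorem wt_padicAlgCl {p : ℕ} [hp : Fact p.Prime] (t : ℚ) : wt (PadicAlgCl p) t = 1 := by
  rw [wt, norm_intCast_padicAlgCl, norm_intCast_padicAlgCl]
  refine le_antisymm (max_le (by exact_mod_cast padicNorm.of_int t.num)
    (by exact_mod_cast padicNorm.of_int (t.den : ℤ))) ?_
  by_cases h : (p : ℤ) ∣ t.num
  · have hd : ¬ (p : ℤ) ∣ (t.den : ℤ) := fun hd => by
      rw [Int.natCast_dvd_natCast] at hd
      exact Nat.not_coprime_of_dvd_of_dvd hp.1.one_lt (Int.natCast_dvd.1 h) hd t.reduced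
    rw [(padicNorm.int_eq_one_iff (t.den : ℤ)).2 hd, Rat.cast_one]
    exact le_max_right _ _
  · rw [(padicNorm.int_eq_one_iff t.num).2 h, Rat.cast_one]
    exact le_max_left _ _

theorem wt_complex (t : ℚ) : wt ℂ t = height t := by
  rw [wt, Complex.norm_intCast, Complex.norm_intCast, height, Nat.cast_max, max_comm]
  simp

/-- The estimates at one place. -/
theorem exists_place (L : Type) [NormedField L] [CharZero L] [IsAlgClosed L]
    (hL : ∀ z : ℤ, ‖(z : L)‖ ≤ |(z : ℝ)|) {μ : ℤ[X]} (hmon : μ.Monic) {n : ℕ}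
    (hn : μ.natDegree = n) (hn0 : 0 < n) (hsep : (μ.map (Int.castRingHom ℚ)).Separable) :
    ∃ (δ : Fin n → ℚ → ℝ) (D : ℝ), 1 ≤ D ∧ (∀ i t, 0 ≤ δ i t ∧ δ i t ≤ D) ∧
      (∀ t : ℚ, ∃ i, δ i t ≤ D * (‖(form μ t.num t.den : L)‖ / wt L t ^ n)) ∧
      ∀ {m N : ℕ} {H : ℝ} {P Q : ℤ[X]}, 1 ≤ m → N ≤ n * m → Small H P → Small H Q →
        P.natDegree ≤ N → Q.natDegree ≤ N →
        (∀ {K : Type} [CommRing K] (α : K), aeval α μ = 0 →
          ∀ j < m, (hasseDeriv j (P.map (Int.castRingHom K))).eval α -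
            α * (hasseDeriv j (Q.map (Int.castRingHom K))).eval α = 0) →
        ∀ (i : Fin n) (t u : ℚ) (j : ℕ),
          ‖(((u.den : ℤ) * homog (hasseDeriv j P) N t.num t.den -
              u.num * homog (hasseDeriv j Q) N t.num t.den : ℤ) : L)‖ ≤
            H * D ^ m * wt L t ^ N * wt L u * (δ i t ^ (m - j) + δ i u) := by
  have hsepL : (μ.map (Int.castRingHom L)).Separable := by
    have := hsep.map (f := algebraMap ℚ L)
    rwa [Polynomial.map_map,
      Subsingleton.elim ((algebraMap ℚ L).comp (Int.castRingHom ℚ)) (Int.castRingHom L)] at this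
  obtain ⟨e, D, hD1, -, hroot, hbd, hnear⟩ := exists_delta_le hmon hn hn0 hsepL
  have hbig : 1 ≤ (32 * D ^ 2) ^ n := one_le_pow₀ (by nlinarith)
  have hDle : D ≤ (32 * D ^ 2) ^ n * (2 * D) := by nlinarith
  refine ⟨fun i => delta (e i), (32 * D ^ 2) ^ n * (2 * D), hD1.trans hDle,
    fun i t => ⟨delta_nonneg _ _, ((delta_le _ _).trans (hbd i)).trans hDle⟩, fun t => ?_, ?_⟩
  · obtain ⟨i, hi⟩ := hnear t
    exact ⟨i, hi.trans (mul_le_mul_of_nonneg_right hDle
      (div_nonneg (norm_nonneg _) (pow_nonneg (wt_pos t).le _)))⟩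
  intro m N H P Q hm hNm hP hQ hPN hQN hvan i t u j
  have hH : 0 ≤ H := hP.nonneg
  refine (norm_gap_le hL rfl hP hQ hPN hQN (hvan (e i) (hroot i)) t u j).trans ?_
  have hi0 : 0 ≤ 1 + ‖e i‖ := by positivity
  have hs : 0 ≤ delta (e i) t ^ (m - j) + delta (e i) u :=
    add_nonneg (pow_nonneg (delta_nonneg _ _) _) (delta_nonneg _ _)
  have := wt_pos (L := L) t
  have := wt_pos (L := L) u
  refine mul_le_mul_of_nonneg_right ?_ hs
  rw [mul_assoc H, mul_pow ((32 * D ^ 2) ^ n), ← pow_mul]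
  gcongr
  calc (32 * (1 + ‖e i‖) ^ 2) ^ N ≤ (32 * D ^ 2) ^ N := by gcongr; exact hbd i
    _ ≤ (32 * D ^ 2) ^ (n * m) := pow_le_pow_right₀ (by nlinarith) hNm
  calc 2 * (1 + ‖e i‖) ≤ 2 * D := by linarith [hbd i]
    _ ≤ _ := le_self_pow₀ (by linarith) (by omega)

/-- The estimates at infinity and at the primes in `S` together. -/
theorem exists_places (S : Finset ℕ) (hS : ∀ p ∈ S, p.Prime) {μ : ℤ[X]} (hmon : μ.Monic) {n : ℕ}
    (hn : μ.natDegree = n) (hn3 : 3 ≤ n) (hsep : (μ.map (Int.castRingHom ℚ)).Separable) :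
    ∃ (δ : Option {p // p ∈ S} → Fin n → ℚ → ℝ) (D : ℝ), 1 ≤ D ∧
      (∀ v i t, 0 ≤ δ v i t ∧ δ v i t ≤ D) ∧
      (∀ t : ℚ, SUnit S (form μ t.num t.den) →
        ∃ r : Option {p // p ∈ S} → Fin n, ∏ v, δ v (r v) t ≤ D / (height t : ℝ) ^ n) ∧
      ∀ s : ℕ, 4 ≤ s → ∃ K : ℝ, 1 ≤ K ∧ ∀ m : ℕ, 1 ≤ m → ∀ t u : ℚ, ∃ j : ℕ,
        (height t : ℝ) ^ (j - 1) ≤ K ^ m ∧ ∀ r : Option {p // p ∈ S} → Fin n,
          1 ≤ (height t : ℝ) ^ (n * m * (s + 1) / (2 * s)) * (height u : ℝ) *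
            (K ^ m * ∏ v, (δ v (r v) t ^ (m - j) + δ v (r v) u)) := by
  classical
  have hn0 : 0 < n := by omega
  have hLC : ∀ z : ℤ, ‖(z : ℂ)‖ ≤ |(z : ℝ)| := fun z => (Complex.norm_intCast z).le
  obtain ⟨δ₀, D₀, hD₀, hδ₀, hnear₀, hgap₀⟩ := exists_place ℂ hLC hmon hn hn0 hsep
  have hp : ∀ v : {p // p ∈ S}, Fact v.1.Prime := fun v => ⟨hS v.1 v.2⟩
  have hLp : ∀ (v : {p // p ∈ S}) (z : ℤ), (padicNorm v.1 (z : ℚ) : ℝ) ≤ |(z : ℝ)| := fun v z => by
    have := hp v
    rcases eq_or_ne z 0 with rfl | hz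
    · simp
    · refine le_trans (b := (1 : ℝ)) (by exact_mod_cast padicNorm.of_int z) ?_
      exact_mod_cast Int.one_le_abs hz
  have hpl : ∀ v : {p // p ∈ S}, ∃ (δ : Fin n → ℚ → ℝ) (D : ℝ), 1 ≤ D ∧
      (∀ i t, 0 ≤ δ i t ∧ δ i t ≤ D) ∧
      (∀ t : ℚ, ∃ i, δ i t ≤ D * (padicNorm v.1 (form μ t.num t.den : ℚ) : ℝ)) ∧
      ∀ {m N : ℕ} {H : ℝ} {P Q : ℤ[X]}, 1 ≤ m → N ≤ n * m → Small H P → Small H Q →
        P.natDegree ≤ N → Q.natDegree ≤ N →
        (∀ {K : Type} [CommRing K] (α : K), aeval α μ = 0 →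
          ∀ j < m, (hasseDeriv j (P.map (Int.castRingHom K))).eval α -
            α * (hasseDeriv j (Q.map (Int.castRingHom K))).eval α = 0) →
        ∀ (i : Fin n) (t u : ℚ) (j : ℕ),
          (padicNorm v.1 (((u.den : ℤ) * homog (hasseDeriv j P) N t.num t.den -
              u.num * homog (hasseDeriv j Q) N t.num t.den : ℤ) : ℚ) : ℝ) ≤
            H * D ^ m * (δ i t ^ (m - j) + δ i u) := fun v => by
    have := hp v
    obtain ⟨δ, D, hD, hδ, hnear, hgap⟩ := exists_place (PadicAlgCl v.1)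
      (fun z => (norm_intCast_padicAlgCl z).trans_le (hLp v z)) hmon hn hn0 hsep
    refine ⟨δ, D, hD, hδ, fun t => ?_, ?_⟩
    · obtain ⟨i, hi⟩ := hnear t
      rw [norm_intCast_padicAlgCl, wt_padicAlgCl, one_pow, div_one] at hi
      exact ⟨i, hi⟩
    · intro m N H P Q hm hNm hP hQ hPN hQN hvan i t u j
      have := hgap hm hNm hP hQ hPN hQN hvan i t u j
      rwa [norm_intCast_padicAlgCl, wt_padicAlgCl, wt_padicAlgCl, one_pow, mul_one, mul_one]
        at this
  choose δp Dp hDp hδp hnearp hgapp using hpl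
  set δ : Option {p // p ∈ S} → Fin n → ℚ → ℝ := fun v => v.elim δ₀ δp with hδdef
  set D := D₀ * ∏ v, Dp v with hDdef
  have hprod1 : 1 ≤ ∏ v, Dp v := Finset.one_le_prod fun v _ => hDp v
  refine ⟨δ, D, one_le_mul_of_one_le_of_one_le hD₀ hprod1, ?_, ?_, ?_⟩
  · rintro (_ | v) i t
    · exact ⟨(hδ₀ i t).1, (hδ₀ i t).2.trans (le_mul_of_one_le_right (by linarith) hprod1)⟩
    · refine ⟨(hδp v i t).1, (hδp v i t).2.trans ?_⟩
      refine le_trans ?_ (le_mul_of_one_le_left (by linarith) hD₀)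
      rw [← Finset.mul_prod_erase _ _ (Finset.mem_univ v)]
      exact le_mul_of_one_le_right (by linarith [hDp v]) (Finset.one_le_prod fun w _ => hDp w)
  · intro t ht
    obtain ⟨i₀, hi₀⟩ := hnear₀ t
    choose ip hip using fun v => hnearp v t
    refine ⟨fun v => v.elim i₀ ip, ?_⟩
    rw [Fintype.prod_option]
    refine (mul_le_mul hi₀ (Finset.prod_le_prod (fun v _ => (hδp v _ t).1) fun v _ => hip v)
      (Finset.prod_nonneg fun v _ => (hδp v _ t).1) ?_).trans (le_of_eq ?_)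
    · have := wt_pos (L := ℂ) t
      positivity
    obtain ⟨k, -, hk, hkeq⟩ := prod_padicNorm S hS ht.1
    rw [Finset.prod_mul_distrib, hk, hkeq ht, wt_complex, Complex.norm_intCast, Nat.cast_natAbs,
      Int.cast_abs, hDdef]
    have : |((form μ t.num t.den : ℤ) : ℝ)| ≠ 0 := abs_ne_zero.2 (Int.cast_ne_zero.2 ht.1)
    field_simp
  · intro s hs
    obtain ⟨C, hC1, hC⟩ := exists_auxiliary hmon hn hn0 s
    set K := max ((C * D₀) * ∏ v, (C * Dp v)) (16 ^ n * C ^ 2) with hK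
    have hK1 : 1 ≤ K := le_max_of_le_right
      (one_le_mul_of_one_le_of_one_le (one_le_pow₀ (by norm_num)) (one_le_pow₀ hC1))
    refine ⟨K, hK1, fun m hm t u => ?_⟩
    set N := n * m * (s + 1) / (2 * s) with hN
    have h2s : 0 < 2 * s := by omega
    have hlt : n * (s + 1) < (n - 1) * (2 * s) := by
      obtain ⟨k, rfl⟩ : ∃ k, n = k + 3 := ⟨n - 3, by omega⟩
      rw [show k + 3 - 1 = k + 2 by omega]
      nlinarith [mul_nonneg (Nat.zero_le k) (Nat.zero_le s)]
    have hNlt : N < (n - 1) * m := by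
      rw [hN, Nat.div_lt_iff_lt_mul h2s, mul_right_comm n, mul_right_comm (n - 1)]
      exact Nat.mul_lt_mul_of_pos_right hlt hm
    have hNnm : N ≤ n * m := hNlt.le.trans (Nat.mul_le_mul_right m (Nat.sub_le n 1))
    have hNge : n * m * (s + 1) ≤ 2 * s * (N + 1) := (Nat.lt_mul_div_succ _ h2s).le
    obtain ⟨P, Q, hne, hPN, hQN, hP, hQ, hvan⟩ := hC m hm N hNnm hNge
    have hsepC : (μ.map (Int.castRingHom ℂ)).Separable := by
      have := hsep.map (f := algebraMap ℚ ℂ)
      rwa [Polynomial.map_map,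
        Subsingleton.elim ((algebraMap ℚ ℂ).comp (Int.castRingHom ℚ)) (Int.castRingHom ℂ)] at this
    obtain ⟨e, De, -, hinj, hroot, -, -⟩ := exists_delta_le hmon hn hn0 hsepC
    have hW := wronskian_ne_zero_of_roots hinj hNlt hne hPN hQN
      fun i => hvan (e i) (hroot i)
    obtain ⟨j, hj, hF⟩ := exists_hasse_ne_zero hP hQ hPN hQN hW t u
    refine ⟨j, hj.trans ?_, fun r => ?_⟩
    · calc (16 : ℝ) ^ N * (C ^ m) ^ 2 ≤ 16 ^ (n * m) * (C ^ m) ^ 2 :=
            mul_le_mul_of_nonneg_right (pow_le_pow_right₀ (by norm_num) hNnm) (sq_nonneg _)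
        _ = (16 ^ n * C ^ 2) ^ m := by rw [mul_pow, ← pow_mul, ← pow_mul, ← pow_mul, mul_comm m 2]
        _ ≤ K ^ m := pow_le_pow_left₀ (by positivity) (le_max_right _ _) m
    · set z : ℤ := (u.den : ℤ) * homog (hasseDeriv j P) N t.num t.den -
        u.num * homog (hasseDeriv j Q) N t.num t.den with hzdef
      have hz : z ≠ 0 := fun h0 => by
        have hd : ((t.den : ℤ) : ℚ) ≠ 0 := by exact_mod_cast t.den_nz
        have h1 := congrArg (Int.cast : ℤ → ℚ) h0
        rw [hzdef, Int.cast_sub, Int.cast_mul, Int.cast_mul,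
          homog_cast ((natDegree_hasseDeriv_le P j).trans (by omega)) hd,
          homog_cast ((natDegree_hasseDeriv_le Q j).trans (by omega)) hd,
          ← map_hasseDeriv, ← map_hasseDeriv, Int.cast_natCast, Int.cast_natCast,
          Rat.num_div_den, Int.cast_zero] at h1
        refine hF ((mul_eq_zero.1 (?_ : (u.den : ℚ) * (t.den : ℚ) ^ N *
          ((hasseDeriv j (P.map (Int.castRingHom ℚ))).eval t -
            u * (hasseDeriv j (Q.map (Int.castRingHom ℚ))).eval t) = 0)).resolve_left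
          (mul_ne_zero (by exact_mod_cast u.den_nz) (pow_ne_zero _ (by exact_mod_cast t.den_nz))))
        rw [mul_sub, ← h1, ← Rat.mul_den_eq_num u]
        ring
      obtain ⟨k, hkdvd, hk, -⟩ := prod_padicNorm S hS hz
      have hkpos : 0 < k := Nat.pos_of_dvd_of_pos hkdvd (Int.natAbs_pos.2 hz)
      have h1 : (1 : ℝ) ≤ ‖(z : ℂ)‖ * ∏ v : {p // p ∈ S}, (padicNorm v.1 (z : ℚ) : ℝ) := by
        rw [hk, Complex.norm_intCast, mul_one_div, one_le_div (by exact_mod_cast hkpos),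
          ← Int.cast_abs, ← Nat.cast_natAbs]
        exact_mod_cast Nat.le_of_dvd (Int.natAbs_pos.2 hz) hkdvd
      refine h1.trans ?_
      have hb0 := hgap₀ hm hNnm hP hQ hPN hQN (fun α h => hvan α h) (r none) t u j
      have hbp : ∀ v, (padicNorm v.1 (z : ℚ) : ℝ) ≤ (C * Dp v) ^ m *
          (δp v (r (some v)) t ^ (m - j) + δp v (r (some v)) u) := fun v =>
        (hgapp v hm hNnm hP hQ hPN hQN (fun α h => hvan α h) (r (some v)) t u j).trans
          (le_of_eq (by rw [mul_pow]))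
      rw [wt_complex, wt_complex] at hb0
      have hs0 : 0 ≤ ∏ v, (δ v (r v) t ^ (m - j) + δ v (r v) u) := Finset.prod_nonneg fun v _ => by
        rcases v with _ | v
        · exact add_nonneg (pow_nonneg (hδ₀ _ _).1 _) (hδ₀ _ _).1
        · exact add_nonneg (pow_nonneg (hδp v _ _).1 _) (hδp v _ _).1
      refine (mul_le_mul hb0 (Finset.prod_le_prod
        (fun v _ => Rat.cast_nonneg.2 (padicNorm.nonneg _)) fun v _ => hbp v)
        (Finset.prod_nonneg fun v _ => Rat.cast_nonneg.2 (padicNorm.nonneg _))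
        ((norm_nonneg _).trans hb0)).trans ?_
      rw [Finset.prod_mul_distrib, Finset.prod_pow, Fintype.prod_option]
      rw [Fintype.prod_option] at hs0
      calc C ^ m * D₀ ^ m * (height t : ℝ) ^ N * (height u : ℝ) *
            (δ₀ (r none) t ^ (m - j) + δ₀ (r none) u) *
            ((∏ v, C * Dp v) ^ m * ∏ v, (δp v (r (some v)) t ^ (m - j) + δp v (r (some v)) u))
          = (height t : ℝ) ^ N * (height u : ℝ) * (((C * D₀) * ∏ v, C * Dp v) ^ m *
              ((δ₀ (r none) t ^ (m - j) + δ₀ (r none) u) *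
                ∏ v, (δp v (r (some v)) t ^ (m - j) + δp v (r (some v)) u))) := by
            rw [mul_pow (C * D₀), mul_pow C]; ring
        _ ≤ _ := mul_le_mul_of_nonneg_left (mul_le_mul_of_nonneg_right
            (pow_le_pow_left₀ (mul_nonneg (mul_nonneg (by linarith) (by linarith))
              (Finset.prod_nonneg fun v _ => mul_nonneg (by linarith) (by linarith [hDp v])))
              (le_max_left _ _) m) hs0) (by positivity)

end FA.ThueMahler

end
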